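import Fermat.Agent.ArtinHooley.Sieve
import Mathlib.Analysis.SpecialFunctions.Log.Summable
import Mathlib.Analysis.PSeries

/-!
# Artin's constant

`∏_q (1 - 1/(q (q - 1)))` converges to a positive number.
-/

set_option autoImplicit false

noncomputable section

open Finset Filter
open scoped Classical Topology

namespace FA.ArtinHooley

/-- **Artin's constant.** -/
def artinConst : ℝ := ∏' q : ℕ, artinFactor q

theorem summable_artinFactor_sub : Summable fun q : ℕ => artinFactor q - 1 := by
  refine Summable.of_norm_bounded (Real.summable_one_div_nat_pow.2 one_lt_two |>.mul_left 2)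
    fun q => ?_
  rw [artinFactor]
  split_ifs with h
  · have h2 : (2 : ℝ) ≤ q := by exact_mod_cast h.two_le
    rw [sub_sub_cancel_left, norm_neg, Real.norm_of_nonneg (by
      have : (0 : ℝ) ≤ q - 1 := by linarith
      positivity), mul_one_div, div_le_div_iff₀ (by nlinarith) (by positivity)]
    nlinarith
  · simp

theorem half_le_artinFactor (q : ℕ) : 1 / 2 ≤ artinFactor q ∧ artinFactor q ≤ 1 := by
  rw [artinFactor]
  split_ifs with h
  · have h2 : (2 : ℝ) ≤ q := by exact_mod_cast h.two_le
    have h3 : 2 ≤ (q : ℝ) * (q - 1) := by nlinarith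
    have h4 : 1 / ((q : ℝ) * (q - 1)) ≤ 1 / 2 := one_div_le_one_div_of_le two_pos h3
    have h5 : 0 ≤ 1 / ((q : ℝ) * (q - 1)) := one_div_nonneg.2 (by linarith)
    constructor <;> linarith
  · norm_num

theorem hasProd_artinConst : HasProd artinFactor artinConst := by
  have h := Real.multipliable_one_add_of_summable summable_artinFactor_sub
  simp only [add_sub_cancel] at h
  exact h.hasProd

theorem artinConst_pos : 0 < artinConst := by
  have hs : Summable fun q : ℕ => Real.log (artinFactor q) := by
    have := Real.summable_log_one_add_of_summable summable_artinFactor_sub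
    simpa only [add_sub_cancel] using this
  rw [artinConst, ← Real.rexp_tsum_eq_tprod (fun q => by linarith [(half_le_artinFactor q).1]) hs]
  exact Real.exp_pos _

/-- The partial products over the primes. -/
theorem tendsto_artinPartial :
    Tendsto (fun z : ℕ => ∏ q ∈ (Icc 1 z).filter Nat.Prime, artinFactor q) atTop
      (𝓝 artinConst) := by
  refine (hasProd_artinConst.tendsto_prod_nat.comp (tendsto_add_atTop_nat 1)).congr fun z => ?_
  refine (Finset.prod_subset (fun q hq => ?_) fun q hq hq' => ?_).symm
  · rw [mem_filter, mem_Icc] at hq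
    exact mem_range.2 (show q < z + 1 by omega)
  · replace hq : q < z + 1 := mem_range.1 hq
    rw [artinFactor, if_neg fun h => hq' (mem_filter.2 ⟨mem_Icc.2 ⟨h.one_le, by omega⟩, h⟩)]

/-- It is the product over the primes. -/
theorem artinConst_eq_tprod_primes :
    artinConst = ∏' q : Nat.Primes, (1 - 1 / (((q : ℕ) : ℝ) * (((q : ℕ) : ℝ) - 1))) := by
  have h : Function.mulSupport artinFactor ⊆ {q : ℕ | q.Prime} := fun q hq => by
    by_contra hn
    exact hq (if_neg hn)
  rw [artinConst, ← tprod_subtype_eq_of_mulSupport_subset h]
  exact tprod_congr fun q => if_pos q.2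

end FA.ArtinHooley

end
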