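import Fermat.Agent.DedekindPrimeIdeals.LogDeriv

/-!
# The Riemann hypothesis for a Dedekind zeta function

`FieldRH K` says that the zeros of the continuation of `(s - 1) ζ_K` with `0 < re s < 1` have
`re s = 1/2`. It is only ever an argument. On it `E' / E = O (H / δ ^ 2)` for
`re s ≥ 1/2 + 2 δ`, where `H = 1 + log |d| + n log (|im s| + 3)`.
-/

set_option autoImplicit false
set_option linter.style.haveILetI false

noncomputable section

universe u

open NumberField Module Complex Metric Set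
open FA.DedekindZF FA.HeckeBS
open scoped Real Classical

namespace FA.ArtinHooley

/-- **The Riemann hypothesis for `ζ_K`.** -/
def FieldRH (K : Type u) [Field K] [NumberField K] : Prop :=
  ∀ E : ℂ → ℂ, Differentiable ℂ E → (∀ s : ℂ, 1 < s.re → E s = (s - 1) * dedekindZeta K s) →
    ∀ z : ℂ, E z = 0 → 0 < z.re → z.re < 1 → z.re = 1 / 2

variable {K : Type u} [Field K] [NumberField K] {E : ℂ → ℂ} (hE : Differentiable ℂ E)
  (hEL : ∀ s : ℂ, 1 < s.re → E s = (s - 1) * dedekindZeta K s) (hRH : FieldRH K)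

include hE hEL hRH in
theorem ne_zero_of_half_lt {z : ℂ} (hz : 1 / 2 < z.re) : E z ≠ 0 := fun h => by
  rcases lt_or_ge z.re 1 with h1 | h1
  · have := hRH E hE hEL z h (by linarith) h1
    linarith
  · exact cleared_ne_zero hE hEL h1 h

/-- The constant of the bound for `E' / E`. -/
def derivC : ℝ := 12 * (2 * growA + 12)

theorem growA_nonneg : 0 ≤ growA := by
  have := eulerConst_nonneg 5
  rw [growA]
  linarith

theorem derivC_nonneg : 0 ≤ derivC := by
  have := growA_nonneg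
  rw [derivC]
  positivity

/-- An entire function without zeros in `re s > 1/2`, bounded by its size `h`, has `E' / E =
O (h / δ ^ 2)` for `re s ≥ 1/2 + 2 δ`. -/
theorem norm_logDeriv_le_of_bounds {E : ℂ → ℂ} {h : ℝ → ℝ} (hE : Differentiable ℂ E)
    (hh : ∀ t, 1 ≤ h t) (hnear : ∀ t t' : ℝ, |t'| ≤ |t| + 3 → h t' ≤ 2 * h t)
    (hne : ∀ z : ℂ, 1 / 2 < z.re → E z ≠ 0)
    (hup : ∀ z : ℂ, z.re ∈ Icc (-4 : ℝ) 5 → ‖E z‖ ≤ Real.exp (growA * h z.im))
    (hlow : ∀ t : ℝ, -Real.log ‖E (((2 : ℝ) : ℂ) + t * I)‖ ≤ 11 * h t)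
    {δ : ℝ} (hδ : 0 < δ) (hδ4 : δ ≤ 1 / 4) {s : ℂ} (h1 : 1 / 2 + 2 * δ ≤ s.re) (h2 : s.re ≤ 2) :
    ‖deriv E s / E s‖ ≤ derivC * h s.im / δ ^ 2 := by
  obtain ⟨H, hHdef⟩ : ∃ H, H = h s.im := ⟨_, rfl⟩
  have hH : 1 ≤ H := hHdef ▸ hh _
  have hA := growA_nonneg
  obtain ⟨c, hc⟩ : ∃ c : ℂ, c = ((2 : ℝ) : ℂ) + s.im * I := ⟨_, rfl⟩
  have hcre : c.re = 2 := by simp [hc]
  have hcim : c.im = s.im := by simp [hc]
  obtain ⟨f, hf⟩ : ∃ f : ℂ → ℂ, f = fun w => E (c + w) := ⟨_, rfl⟩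
  have hfd : Differentiable ℂ f := hf ▸ hE.comp (differentiable_id.const_add c)
  obtain ⟨R, hR⟩ : ∃ R : ℝ, R = 3 / 2 - δ := ⟨_, rfl⟩
  have hR0 : 0 < R := by linarith
  have hball : ∀ w ∈ ball (0 : ℂ) R, 1 / 2 < (c + w).re ∧ (c + w).re ≤ 4 ∧
      h (c + w).im ≤ 2 * H := fun w hw => by
    rw [mem_ball_zero_iff] at hw
    have hr := abs_le.1 ((abs_re_le_norm w).trans hw.le)
    have hi := abs_le.1 ((abs_im_le_norm w).trans hw.le)
    refine ⟨by rw [add_re, hcre]; linarith, by rw [add_re, hcre]; linarith,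
      hHdef ▸ hnear _ _ ?_⟩
    rw [add_im, hcim]
    have := abs_add_le s.im w.im
    have := abs_le.2 hi
    linarith
  have hne' : ∀ w ∈ ball (0 : ℂ) R, f w ≠ 0 := fun w hw => hf ▸ hne _ (hball w hw).1
  obtain ⟨L, hL⟩ : ∃ L, L = (2 * growA + 12) * H := ⟨_, rfl⟩
  have hL0 : 0 < L := hL ▸ by positivity
  have hlow' : -(11 * H) ≤ Real.log ‖f 0‖ := by
    simp only [hf, add_zero, hc, hHdef]
    linarith [hlow s.im]
  have hb : ∀ w ∈ ball (0 : ℂ) R, ‖f w‖ ≤ Real.exp L * ‖f 0‖ := fun w hw => by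
    obtain ⟨hre, hre4, hh⟩ := hball w hw
    rw [← Real.exp_log (norm_pos_iff.2 (hne' 0 (mem_ball_self hR0))), ← Real.exp_add,
      show f w = E (c + w) by rw [hf]]
    refine (hup _ ⟨by linarith, by linarith⟩).trans (Real.exp_le_exp.2 ?_)
    have := mul_le_mul_of_nonneg_left hh hA
    rw [hL]
    nlinarith
  obtain ⟨φ, hder, hφ⟩ := FA.DLVP.norm_log_le hR0 hfd.differentiableOn hne'
    (Real.one_lt_exp_iff.2 hL0) hb
  rw [Real.log_exp] at hφ
  obtain ⟨w₀, hw₀def⟩ : ∃ w₀ : ℂ, w₀ = ((s.re - 2 : ℝ) : ℂ) := ⟨_, rfl⟩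
  have hw₀ : ‖w₀‖ ≤ 3 / 2 - 2 * δ := by
    rw [hw₀def, norm_real, Real.norm_eq_abs, abs_le]
    constructor <;> linarith
  have hcw : c + w₀ = s := by apply Complex.ext <;> simp [hc, hw₀def]
  have hsub : ∀ w ∈ closedBall w₀ (δ / 2), ‖w‖ ≤ 3 / 2 - 3 / 2 * δ := fun w hw => by
    rw [mem_closedBall, dist_eq_norm] at hw
    have := norm_le_norm_add_norm_sub' w w₀
    linarith
  have hw₀mem : w₀ ∈ ball (0 : ℂ) R := mem_ball_zero_iff.2 (by linarith)
  have hd : DiffContOnCl ℂ φ (ball w₀ (δ / 2)) := by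
    refine DifferentiableOn.diffContOnCl ?_
    rw [closure_ball _ (by positivity)]
    exact fun w hw => (hder w (mem_ball_zero_iff.2
      (by linarith [hsub w hw]))).differentiableAt.differentiableWithinAt
  have key : ‖deriv φ w₀‖ ≤ 6 * L / δ / (δ / 2) := by
    refine norm_deriv_le_of_forall_mem_sphere_norm_le (by positivity) hd fun w hw => ?_
    have hn := hsub w (sphere_subset_closedBall hw)
    refine (hφ w (mem_ball_zero_iff.2 (by linarith))).trans ?_
    refine (div_le_div₀ (by positivity)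
      (mul_le_mul_of_nonneg_left (show ‖w‖ ≤ 3 / 2 by linarith) (by positivity))
      (by positivity) (show δ / 2 ≤ R - ‖w‖ by linarith)).trans (le_of_eq ?_)
    field_simp
    ring
  rw [(hder w₀ hw₀mem).deriv] at key
  simp only [hf, deriv_comp_const_add, hcw] at key
  refine key.trans (le_of_eq ?_)
  rw [hL, hHdef, derivC]
  field_simp
  ring

include hE hEL hRH in
theorem norm_logDeriv_le {δ : ℝ} (hδ : 0 < δ) (hδ4 : δ ≤ 1 / 4) {s : ℂ}
    (h1 : 1 / 2 + 2 * δ ≤ s.re) (h2 : s.re ≤ 2) :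
    ‖deriv E s / E s‖ ≤ derivC * height K s.im / δ ^ 2 :=
  norm_logDeriv_le_of_bounds hE (one_le_height K)
    (fun _ _ ht => height_le_two_mul K (Or.inl ht))
    (fun _ hz => ne_zero_of_half_lt hE hEL hRH hz)
    (fun _ hz => DedekindPIT.norm_cleared_le hE hEL hz)
    (fun t => by
      have := DedekindPIT.neg_log_cleared_le_div hEL (z := ((2 : ℝ) : ℂ) + t * I) (by simp)
        (by norm_num)
      simp only [add_re, add_im, ofReal_re, ofReal_im, mul_re, mul_im, I_re, I_im, mul_zero,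
        mul_one, sub_self, add_zero, zero_add, show (2 : ℝ) - 1 = 1 by norm_num, div_one] at this
      exact this)
    hδ hδ4 h1 h2

end FA.ArtinHooley

end
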