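import Fermat.Agent.ArtinHooley.NotPower
import Mathlib.RingTheory.RootsOfUnity.EnoughRootsOfUnity

/-!
# The fields `ℚ(ζ_k, a ^ (1/k))`

For `k` squarefree and a good `a` the splitting field of `X ^ k - a` has degree `k φ k` over `ℚ`,
and `log |d| ≤ k φ k (2 log k + log |a|)`.
-/

set_option autoImplicit false
set_option linter.style.haveILetI false

noncomputable section

open Polynomial NumberField IntermediateField
open scoped Classical

namespace FA.ArtinHooley

/-- The splitting field of `X ^ k - a` over `ℚ`. -/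
abbrev KummerField (a : ℤ) (k : ℕ) : Type :=
  (X ^ k - C (a : ℚ) : ℚ[X]).SplittingField

instance kummerField_numberField (a : ℤ) (k : ℕ) : NumberField (KummerField a k) where

instance kummerField_splitting (a : ℤ) (k : ℕ) :
    IsSplittingField ℚ (KummerField a k) (X ^ k - C (a : ℚ)) := by
  convert Polynomial.IsSplittingField.splittingField (X ^ k - C (a : ℚ)) using 2
  exact Subsingleton.elim _ _

variable {a : ℤ} (ha : GoodBase a) {k : ℕ} [NeZero k]

include ha in
theorem kummer_separable : (X ^ k - C (a : ℚ)).Separable :=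
  separable_X_pow_sub_C _ (Nat.cast_ne_zero.2 (NeZero.ne k)) (Int.cast_ne_zero.2 ha.ne_zero)

include ha in
theorem isGalois_kummerField : IsGalois ℚ (KummerField a k) :=
  IsGalois.of_separable_splitting_field (p := X ^ k - C (a : ℚ)) (kummer_separable ha)

include ha in
/-- The generators. -/
theorem exists_kummer_gens : ∃ (ζ α : KummerField a k),
    IsPrimitiveRoot ζ k ∧ α ^ k = (a : KummerField a k) ∧
      IntermediateField.adjoin ℚ {ζ, α} = ⊤ := by
  have hroot : ∀ r : KummerField a k, r ∈ (X ^ k - C (a : ℚ)).rootSet (KummerField a k) ↔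
      r ^ k = (a : KummerField a k) := fun r => by
    rw [mem_rootSet, map_sub, map_pow, aeval_X, aeval_C, sub_eq_zero,
      map_intCast (algebraMap ℚ (KummerField a k)) a]
    exact and_iff_right (X_pow_sub_C_ne_zero (NeZero.pos k) _)
  have hcard : Fintype.card ((X ^ k - C (a : ℚ)).rootSet (KummerField a k)) = k := by
    rw [card_rootSet_eq_natDegree (kummer_separable ha) (IsSplittingField.splits _ _),
      natDegree_X_pow_sub_C]
  obtain ⟨⟨α, hα⟩⟩ : Nonempty ((X ^ k - C (a : ℚ)).rootSet (KummerField a k)) :=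
    Fintype.card_pos_iff.1 (by rw [hcard]; exact NeZero.pos k)
  have hαk := (hroot α).1 hα
  have ha0 : (a : KummerField a k) ≠ 0 := Int.cast_ne_zero.2 ha.ne_zero
  have hα0 : α ≠ 0 := fun e => ha0 (by rw [← hαk, e, zero_pow (NeZero.ne k)])
  obtain ⟨g, hg⟩ : ∃ g : (X ^ k - C (a : ℚ)).rootSet (KummerField a k) →
      rootsOfUnity k (KummerField a k),
      ∀ r, ((g r : (KummerField a k)ˣ) : KummerField a k) = (r : KummerField a k) / α := by
    refine ⟨fun r => rootsOfUnity.mkOfPowEq ((r : KummerField a k) / α) ?_, fun r => rfl⟩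
    rw [div_pow, (hroot _).1 r.2, hαk, div_self ha0]
  have hginj : Function.Injective g := fun r r' e => by
    have h1 := hg r
    rw [e, hg r', div_left_inj' hα0] at h1
    exact Subtype.ext h1.symm
  obtain ⟨ζ, hζ⟩ : ∃ ζ : KummerField a k, IsPrimitiveRoot ζ k := by
    refine card_rootsOfUnity_eq_iff_exists_isPrimitiveRoot.1
      (le_antisymm (card_rootsOfUnity _ _) ?_)
    rw [← Nat.card_eq_fintype_card] at hcard
    exact hcard.symm.le.trans (Nat.card_le_card_of_injective g hginj)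
  refine ⟨ζ, α, hζ, hαk, IntermediateField.toSubalgebra_injective ?_⟩
  rw [IntermediateField.top_toSubalgebra, eq_top_iff,
    ← IsSplittingField.adjoin_rootSet (KummerField a k) (X ^ k - C (a : ℚ)), Algebra.adjoin_le_iff]
  intro r hr
  obtain ⟨i, -, hi⟩ := hζ.eq_pow_of_pow_eq_one (ξ := r / α)
    (by rw [div_pow, (hroot r).1 hr, hαk, div_self ha0])
  rw [show r = ζ ^ i * α by rw [hi, div_mul_cancel₀ _ hα0]]
  exact mul_mem (pow_mem (IntermediateField.subset_adjoin ℚ _ (by simp)) i)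
    (IntermediateField.subset_adjoin ℚ _ (by simp))

omit [NeZero k] in
/-- The degree and the discriminant of a field generated by an `m`-th root of unity and a `k`-th
root of `a`, `k ∣ m` squarefree, if `a` has no `q`-th root in `ℚ(ζ_m)` for `q ∣ k`. -/
theorem finrank_and_discr_of_gens [NeZero k] {L : Type} [Field L] [NumberField L] {a : ℤ}
    (ha0 : a ≠ 0) {m : ℕ} [NeZero m] (hk : Squarefree k) (hkm : k ∣ m) {ζ α : L}
    (hζ : IsPrimitiveRoot ζ m) (hα : α ^ k = (a : L))
    (htop : IntermediateField.adjoin ℚ {ζ, α} = ⊤)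
    (hpow : ∀ q ∈ k.primeFactors, ∀ b : IntermediateField.adjoin ℚ {ζ}, b ^ q ≠ (a : _)) :
    Module.finrank ℚ L = k * m.totient ∧
      Real.log (((discr L).natAbs : ℕ) : ℝ) ≤
        (k * m.totient : ℕ) * (2 * Real.log m + Real.log |(a : ℝ)|) ∧
      ∀ p : ℕ, p.Prime → p ∣ (discr L).natAbs → p ∣ m * a.natAbs := by
  have hkm' : k ≤ m := Nat.le_of_dvd (NeZero.pos m) hkm
  obtain ⟨M, hM⟩ : ∃ M : IntermediateField ℚ L,
      M = IntermediateField.adjoin ℚ {ζ} := ⟨_, rfl⟩
  haveI : IsCyclotomicExtension {m} ℚ M :=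
    hM ▸ hζ.intermediateField_adjoin_isCyclotomicExtension ℚ
  have hfM : Module.finrank ℚ M = m.totient := IsCyclotomicExtension.Rat.finrank m M
  have htopM : IntermediateField.adjoin M {α} = ⊤ := by
    apply IntermediateField.restrictScalars_injective ℚ
    rw [IntermediateField.restrictScalars_top, eq_top_iff, ← htop, IntermediateField.adjoin_le_iff]
    intro r hr
    rcases hr with rfl | hr
    · rw [SetLike.mem_coe, IntermediateField.mem_restrictScalars]
      exact IntermediateField.algebraMap_mem _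
        (⟨r, hM ▸ IntermediateField.mem_adjoin_simple_self ℚ r⟩ : M)
    · rw [Set.mem_singleton_iff] at hr
      rw [hr, SetLike.mem_coe, IntermediateField.mem_restrictScalars]
      exact IntermediateField.mem_adjoin_simple_self M α
  have hint : IsIntegral M α := Algebra.IsIntegral.isIntegral α
  have hle : Module.finrank M L ≤ k := by
    rw [← finrank_top', ← htopM, IntermediateField.adjoin.finrank hint]
    refine le_of_le_of_eq (natDegree_le_of_dvd (minpoly.dvd M α (p := X ^ k - C (a : M)) ?_)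
      (X_pow_sub_C_ne_zero (NeZero.pos k) _)) natDegree_X_pow_sub_C
    simp [hα]
  have hge : ∀ q ∈ k.primeFactors, q ∣ Module.finrank M L := fun q hq => by
    obtain ⟨hqp, ⟨j, hj⟩, -⟩ := Nat.mem_primeFactors.1 hq
    have hirr := X_pow_sub_C_irreducible_of_prime hqp (hM ▸ hpow q hq : ∀ b : M, b ^ q ≠ (a : M))
    have hmin : minpoly M (α ^ j) = X ^ q - C (a : M) :=
      (minpoly.eq_of_irreducible_of_monic hirr
        (by simp [← pow_mul, mul_comm j q, ← hj, hα])
        (monic_X_pow_sub_C _ hqp.ne_zero)).symm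
    have := minpoly.degree_dvd (K := M) (Algebra.IsIntegral.isIntegral (α ^ j))
    rwa [hmin, natDegree_X_pow_sub_C] at this
  have hKM : Module.finrank M L = k := by
    refine le_antisymm hle (Nat.le_of_dvd Module.finrank_pos ?_)
    refine (Nat.prod_primeFactors_of_squarefree hk).symm.dvd.trans ?_
    exact Finset.prod_primes_dvd _
      (fun q hq => Nat.prime_iff.1 (Nat.prime_of_mem_primeFactors hq)) hge
  have hfK : Module.finrank ℚ L = k * m.totient := by
    rw [← Module.finrank_mul_finrank ℚ M L, hfM, hKM, mul_comm]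
  refine ⟨hfK, ?_⟩
  -- the different divides `k α ^ (k - 1)`
  have hαint : IsIntegral ℤ α := IsIntegral.of_pow (NeZero.pos k) (by
    rw [hα]; exact isIntegral_algebraMap (R := ℤ) (A := L) (x := a))
  obtain ⟨x, hx⟩ : ∃ x : 𝓞 L, (x : L) = α := ⟨⟨α, hαint⟩, rfl⟩
  have hxk : x ^ k = (a : 𝓞 L) := RingOfIntegers.ext (by
    simp only [map_pow, map_intCast]
    exact (congrArg (· ^ k) hx).trans hα)
  have hadj : Algebra.adjoin M {algebraMap (𝓞 L) L x} = ⊤ := by
    rw [show algebraMap (𝓞 L) L x = α from hx,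
      ← IntermediateField.adjoin_simple_toSubalgebra_of_isAlgebraic hint.isAlgebraic, htopM,
      IntermediateField.top_toSubalgebra]
  obtain ⟨r, hr⟩ : minpoly (𝓞 M) x ∣ X ^ k - C (a : 𝓞 M) :=
    minpoly.isIntegrallyClosed_dvd (Algebra.IsIntegral.isIntegral x) (by simp [hxk])
  have hmem : (k : 𝓞 L) * x ^ (k - 1) ∈
      differentIdeal (𝓞 M) (𝓞 L) := by
    have h1 : aeval x (derivative (X ^ k - C (a : 𝓞 M))) =
        (k : 𝓞 L) * x ^ (k - 1) := by
      simp [derivative_pow]
    rw [← h1, hr, derivative_mul, map_add, map_mul, map_mul, minpoly.aeval, zero_mul, add_zero]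
    exact Ideal.mul_mem_right _ _
      (aeval_derivative_mem_differentIdeal (𝓞 M) M L x hadj)
  obtain ⟨n, hn⟩ : ∃ n, n = k * m.totient := ⟨_, rfl⟩
  obtain ⟨D, hD⟩ : ∃ D, D = Ideal.absNorm (differentIdeal (𝓞 M) (𝓞 L)) :=
    ⟨_, rfl⟩
  have hdiscr : (discr L).natAbs = D * (discr M).natAbs ^ k := by
    rw [hD, natAbs_discr_eq_absNorm_differentIdeal_mul_natAbs_discr_pow M (𝓞 M) L
      (𝓞 L), hKM]
  have hDdvd : D ∣ (Algebra.norm ℤ ((k : 𝓞 L) * x ^ (k - 1))).natAbs := by
    rw [hD, ← Ideal.absNorm_span_singleton]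
    exact Ideal.absNorm_dvd_absNorm_of_le ((Ideal.span_singleton_le_iff_mem _).2 hmem)
  have hnk : Module.finrank ℤ (𝓞 L) = n := by
    rw [RingOfIntegers.rank, hfK, hn]
  have hNk : ((Algebra.norm ℤ ((k : 𝓞 L) * x ^ (k - 1))).natAbs) ^ k =
      (k ^ n) ^ k * (a.natAbs ^ n) ^ (k - 1) := by
    have h1 : (Algebra.norm ℤ (k : 𝓞 L)).natAbs = k ^ n := by
      rw [show (k : 𝓞 L) = algebraMap ℤ _ (k : ℤ) by simp, Algebra.norm_algebraMap,
        hnk, Int.natAbs_pow, Int.natAbs_natCast]
    have h2 : (Algebra.norm ℤ x).natAbs ^ k = a.natAbs ^ n := by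
      rw [← Int.natAbs_pow, ← map_pow, hxk,
        show (a : 𝓞 L) = algebraMap ℤ _ a by simp, Algebra.norm_algebraMap,
        hnk, Int.natAbs_pow]
    rw [map_mul, map_pow, Int.natAbs_mul, Int.natAbs_pow, h1, mul_pow,
      ← pow_mul _ (k - 1) k, mul_comm (k - 1) k, pow_mul _ k (k - 1), h2]
  have hpos : 0 < (k ^ n) ^ k * (a.natAbs ^ n) ^ (k - 1) :=
    Nat.mul_pos (pow_pos (pow_pos (NeZero.pos k) _) _)
      (pow_pos (pow_pos (Int.natAbs_pos.2 ha0) _) _)
  have hDle : D ^ k ≤ (k ^ n) ^ k * (a.natAbs ^ n) ^ (k - 1) :=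
    Nat.le_of_dvd hpos (hNk ▸ pow_dvd_pow_of_dvd hDdvd k)
  have hdM : (discr M).natAbs ≤ m ^ m.totient := by
    rw [IsCyclotomicExtension.Rat.natAbs_discr m M]
    exact Nat.div_le_self _ _
  have hle' : (discr L).natAbs ^ k ≤ (m ^ 2 * a.natAbs) ^ (n * k) := by
    rw [hdiscr, mul_pow, ← pow_mul]
    calc D ^ k * (discr M).natAbs ^ (k * k)
        ≤ (m ^ n) ^ k * (a.natAbs ^ n) ^ k * (m ^ m.totient) ^ (k * k) :=
          Nat.mul_le_mul (hDle.trans (Nat.mul_le_mul
            (Nat.pow_le_pow_left (Nat.pow_le_pow_left hkm' n) k) (Nat.pow_le_pow_right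
              (pow_pos (Int.natAbs_pos.2 ha0) _) (Nat.sub_le k 1))))
            (Nat.pow_le_pow_left hdM _)
      _ = _ := by
          rw [hn]
          simp only [← pow_mul, mul_pow]
          ring
  refine ⟨?_, fun p hp hpd => ?_⟩
  swap
  · rw [hdiscr, hp.dvd_mul] at hpd
    rcases hpd with hpd | hpd
    · have h1 := hNk ▸ pow_dvd_pow_of_dvd hDdvd k
      have h2 : p ∣ (k ^ n) ^ k * (a.natAbs ^ n) ^ (k - 1) :=
        ((dvd_pow hpd (NeZero.ne k)).trans h1)
      rcases hp.dvd_mul.1 h2 with h | h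
      · exact dvd_mul_of_dvd_left ((hp.dvd_of_dvd_pow (hp.dvd_of_dvd_pow h)).trans hkm) _
      · exact dvd_mul_of_dvd_right (hp.dvd_of_dvd_pow (hp.dvd_of_dvd_pow h)) _
    · have h1 : (discr M).natAbs ∣ m ^ m.totient := by
        rw [IsCyclotomicExtension.Rat.natAbs_discr m M]
        exact Nat.div_dvd_of_dvd (Nat.prod_primeFactors_pow_totient_ediv_dvd (NeZero.pos m))
      exact dvd_mul_of_dvd_left
        (hp.dvd_of_dvd_pow ((hp.dvd_of_dvd_pow hpd).trans h1)) _
  have hd : 1 ≤ (discr L).natAbs := Int.natAbs_pos.2 (discr_ne_zero _)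
  have hle2 : (((discr L).natAbs : ℕ) : ℝ) ^ k ≤
      ((m : ℝ) ^ 2 * |(a : ℝ)|) ^ (n * k) := by
    rw [show |(a : ℝ)| = ((a.natAbs : ℕ) : ℝ) by rw [Nat.cast_natAbs, Int.cast_abs]]
    exact_mod_cast hle'
  have hlog := Real.log_le_log (pow_pos (Nat.cast_pos.2 hd) k) hle2
  rw [Real.log_pow, Real.log_pow, Real.log_mul (pow_ne_zero _ (Nat.cast_ne_zero.2 (NeZero.ne m)))
    (abs_ne_zero.2 (Int.cast_ne_zero.2 ha0)), Real.log_pow] at hlog
  rw [← hn]
  refine le_of_mul_le_mul_left (hlog.trans (le_of_eq ?_)) (Nat.cast_pos.2 (NeZero.pos k))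
  push_cast
  ring

variable (hk : Squarefree k)

include ha hk in
/-- **The degree**, and the bound for the discriminant. -/
theorem kummer_finrank_and_discr :
    Module.finrank ℚ (KummerField a k) = k * k.totient ∧
      Real.log (((discr (KummerField a k)).natAbs : ℕ) : ℝ) ≤
        (k * k.totient : ℕ) * (2 * Real.log k + Real.log |(a : ℝ)|) ∧
      ∀ p : ℕ, p.Prime → p ∣ (discr (KummerField a k)).natAbs → p ∣ k * a.natAbs := by
  obtain ⟨ζ, α, hζ, hα, htop⟩ := exists_kummer_gens (k := k) ha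
  obtain ⟨M, hM⟩ : ∃ M : IntermediateField ℚ (KummerField a k),
      M = IntermediateField.adjoin ℚ {ζ} := ⟨_, rfl⟩
  haveI : IsCyclotomicExtension {k} ℚ M :=
    hM ▸ hζ.intermediateField_adjoin_isCyclotomicExtension ℚ
  have hpow : ∀ q ∈ k.primeFactors, ∀ b : M, b ^ q ≠ (a : M) := fun q hq b =>
    ha.not_pow (k := k) hk (Nat.prime_of_mem_primeFactors hq) b
  exact finrank_and_discr_of_gens ha.ne_zero hk dvd_rfl hζ hα htop (hM ▸ hpow)

end FA.ArtinHooley

end
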