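import Fermat.Agent.ArtinHooley.Ranges

/-!
# Hooley's theorem

On the Riemann hypothesis for the fields `ℚ(ζ_k, a ^ (1/k))` the primes `p ≤ x` with the primitive
root `a` number `A x / log x` asymptotically, `A` Artin's constant.
-/

set_option autoImplicit false
set_option linter.style.haveILetI false

noncomputable section

open Finset Filter
open scoped Classical Topology

namespace FA.ArtinHooley

/-- The hypothesis: RH for all the fields `ℚ(ζ_k, a ^ (1/k))`, `k` squarefree. -/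
def KummerRH (a : ℤ) : Prop := ∀ k : ℕ, Squarefree k → FieldRH (KummerField a k)

theorem log_abs_int_nonneg {a : ℤ} (ha : a ≠ 0) : 0 ≤ Real.log |(a : ℝ)| := by
  rw [← Int.cast_abs]
  exact Real.log_nonneg (by exact_mod_cast Int.one_le_abs ha)

/-- The sieve by the primes of `Q ≤ z ≤ log N / 4`, from the counts at their products. -/
theorem abs_sieve_sub_le {a : ℤ} {P : ℕ → Prop} {w B : ℝ} (hB : 0 ≤ B) {Q : Finset ℕ} {N z : ℕ}
    (hQs : Q ⊆ (Icc 1 z).filter Nat.Prime) (hz : (z : ℝ) ≤ Real.log N / 4)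
    (hcount : ∀ T ⊆ Q, |(condCount a P (∏ q ∈ T, q) N : ℝ) -
      w * logInt N / (((∏ q ∈ T, q) * (∏ q ∈ T, q).totient : ℕ) : ℝ)| ≤
        B * (1 + Real.log ((∏ q ∈ T, q : ℕ) : ℝ)) * (√N * Real.log N ^ 4)) :
    |(((sieveSet a Q N).filter P).card : ℝ) - w * logInt N * ∏ q ∈ Q, artinFactor q| ≤
      B * ((2 : ℝ) ^ z * ((1 + Real.log N ^ 2) * (√N * Real.log N ^ 4))) := by
  have hQ : ∀ q ∈ Q, q.Prime := fun q hq => (mem_filter.1 (hQs hq)).2
  have hQz : Q.card ≤ z := by
    refine (card_le_card hQs).trans ((card_filter_le _ _).trans (le_of_eq ?_))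
    rw [Nat.card_Icc, Nat.add_sub_cancel]
  have hS : (((sieveSet a Q N).filter P).card : ℝ) =
      ∑ T ∈ Q.powerset, (-1 : ℝ) ^ T.card * (condCount a P (∏ q ∈ T, q) N : ℝ) := by
    exact_mod_cast card_sieveSet_filter a P hQ N
  rw [hS, ← sum_alternating_inv_degree hQ, mul_sum, ← sum_sub_distrib]
  have hl : 0 ≤ Real.log N := Real.log_natCast_nonneg N
  obtain ⟨R, hR⟩ : ∃ R, R = √(N : ℝ) * Real.log N ^ 4 := ⟨_, rfl⟩
  have hR0 : 0 ≤ R := hR ▸ by positivity
  rw [← hR]
  refine (abs_sum_le_sum_abs _ _).trans ((sum_le_card_nsmul _ _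
    (B * ((1 + Real.log N ^ 2) * R)) fun T hT => ?_).trans ?_)
  · have hTp : ∀ q ∈ T, q.Prime := fun q hq => hQ q (mem_powerset.1 hT hq)
    obtain ⟨k, hk⟩ : ∃ k, k = ∏ q ∈ T, q := ⟨_, rfl⟩
    rw [← hk, show (-1 : ℝ) ^ T.card * (condCount a P k N : ℝ) -
      w * logInt N * ((-1 : ℝ) ^ T.card / ((k * k.totient : ℕ) : ℝ)) =
      (-1 : ℝ) ^ T.card *
        ((condCount a P k N : ℝ) - w * logInt N / ((k * k.totient : ℕ) : ℝ)) by ring,
      abs_mul, abs_pow, abs_neg, abs_one, one_pow, one_mul]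
    refine (hk ▸ hcount T (mem_powerset.1 hT)).trans ?_
    rw [← hR, ← mul_assoc]
    refine mul_le_mul_of_nonneg_right ?_ hR0
    refine mul_le_mul_of_nonneg_left ?_ hB
    have hlk : Real.log k ≤ Real.log N ^ 2 := by
      rw [hk, Nat.cast_prod, Real.log_prod fun q hq => Nat.cast_ne_zero.2 (hTp q hq).ne_zero]
      refine (sum_le_card_nsmul _ _ (z : ℝ) fun q hq => ?_).trans ?_
      · refine (Real.log_le_self (Nat.cast_nonneg q)).trans (Nat.cast_le.2 ?_)
        have := hQs (mem_powerset.1 hT hq)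
        rw [mem_filter, mem_Icc] at this
        exact this.1.2
      · rw [nsmul_eq_mul]
        refine (mul_le_mul_of_nonneg_right (Nat.cast_le.2
          ((card_le_card (mem_powerset.1 hT)).trans hQz)) (Nat.cast_nonneg z)).trans ?_
        nlinarith [Nat.cast_nonneg (α := ℝ) z]
    linarith
  · rw [card_powerset, nsmul_eq_mul, Nat.cast_pow, Nat.cast_two,
      mul_left_comm ((2 : ℝ) ^ Q.card)]
    exact mul_le_mul_of_nonneg_left (mul_le_mul_of_nonneg_right
      (pow_le_pow_right₀ one_le_two hQz) (by positivity)) (by positivity)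

/-- What the three ranges hold, from upper counts at the primes `q > z₀`. -/
theorem exists_ranges_le_of_count {a : ℤ} (ha2 : 2 ≤ a.natAbs) {P : ℕ → Prop} {w₀ B : ℝ}
    (hB : 0 ≤ B) (hw₀ : w₀ ≤ 1) {z₀ : ℕ}
    (hcount : ∀ q : ℕ, q.Prime → z₀ < q → ∀ N : ℕ, 2 ≤ N →
      (condCount a P q N : ℝ) - w₀ * logInt N / ((q * q.totient : ℕ) : ℝ) ≤
        B * (1 + Real.log q) * (√N * Real.log N ^ 4)) :
    ∃ C : ℝ, 0 ≤ C ∧ ∀ N : ℕ, 64 ≤ Real.log N →
    Real.log (Real.log N) ≤ Real.log N / 64 → z₀ ≤ ⌊Real.log N / 4⌋₊ →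
      (((sieveSet a ((Icc 1 ⌊Real.log N / 4⌋₊).filter Nat.Prime) N).filter P).card : ℝ) -
        ((primRootSet a N).filter P).card ≤
      8 * logInt N / Real.log N +
        C * (N / Real.log N) * ((Real.log (Real.log N) + 1) / Real.log N) := by
  have hla : 0 ≤ Real.log |(a : ℝ)| := log_abs_int_nonneg (Int.natAbs_pos.1 (by omega))
  refine ⟨2 * B + 8100 + 2 * (Real.log |(a : ℝ)| + 1), by positivity,
    fun N hL hlL hz₀ => ?_⟩
  obtain ⟨L, hLdef⟩ : ∃ L, L = Real.log N := ⟨_, rfl⟩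
  obtain ⟨w, hw⟩ : ∃ w, w = Real.log L := ⟨_, rfl⟩
  rw [← hLdef] at hz₀
  rw [← hLdef, ← hw] at hlL ⊢
  rw [← hLdef] at hL
  have hN : 2 ≤ N := by
    by_contra h
    interval_cases N <;> norm_num at hLdef <;> linarith
  have hN0 : (0 : ℝ) < N := Nat.cast_pos.2 (by omega)
  have hL0 : 0 < L := by linarith
  have hw0 : 0 ≤ w := hw ▸ Real.log_nonneg (by linarith)
  have hl2 : Real.log 2 ≤ 1 := by linarith [Real.log_two_lt_d9]
  obtain ⟨s, hs⟩ : ∃ s, s = √(N : ℝ) := ⟨_, rfl⟩
  have hs0 : 0 < s := hs ▸ Real.sqrt_pos.2 hN0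
  have hss : s * s = N := hs ▸ Real.mul_self_sqrt hN0.le
  have hls : Real.log s = L / 2 := by rw [hs, Real.log_sqrt hN0.le, hLdef]
  obtain ⟨z, hz⟩ : ∃ z, z = ⌊L / 4⌋₊ := ⟨_, rfl⟩
  obtain ⟨u, hu⟩ : ∃ u, u = ⌊s / L ^ 8⌋₊ := ⟨_, rfl⟩
  obtain ⟨v, hv⟩ : ∃ v, v = ⌈s * L⌉₊ := ⟨_, rfl⟩
  obtain ⟨y, hy⟩ : ∃ y, y = ⌊s / L⌋₊ := ⟨_, rfl⟩
  rw [← hz] at hz₀ ⊢
  have hz8 : L / 8 ≤ z := by
    have h1 := Nat.lt_floor_add_one (L / 4)
    rw [← hz] at h1
    linarith
  have hz1 : 1 ≤ z := hz ▸ Nat.le_floor (by push_cast; linarith)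
  have h4 : 4 ≤ s / L ^ 8 := by
    rw [le_div_iff₀ (by positivity), ← Real.log_le_log_iff (by positivity) hs0, hls,
      Real.log_mul (by norm_num) (by positivity), Real.log_pow, ← hw,
      show (4 : ℝ) = 2 ^ 2 by norm_num, Real.log_pow]
    push_cast
    linarith
  have hu2 : s / L ^ 8 / 2 ≤ u := by
    have h1 := Nat.lt_floor_add_one (s / L ^ 8)
    rw [← hu] at h1
    linarith
  have hu2' : 2 ≤ u := hu ▸ Nat.le_floor (by push_cast; linarith)
  have hus : (u : ℝ) ≤ s / L ^ 8 := hu ▸ Nat.floor_le (by positivity)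
  have hv1 : s * L ≤ v := hv ▸ Nat.le_ceil _
  have hsL1 : 1 ≤ s * L := by
    have h8 : (1 : ℝ) ≤ L ^ 8 := one_le_pow₀ (by linarith)
    rw [le_div_iff₀ (by positivity)] at h4
    nlinarith
  have hv2 : (v : ℝ) ≤ 2 * (s * L) := by
    have := Nat.ceil_lt_add_one (show 0 ≤ s * L by positivity)
    rw [← hv] at this
    linarith
  have hsN : s ≤ N := hss ▸ le_mul_of_one_le_left hs0.le (by
    rw [hs]
    exact Real.one_le_sqrt.2 (Nat.one_le_cast.2 (by omega)))
  have huv : u ≤ v := by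
    have : (u : ℝ) ≤ v := (hus.trans (div_le_self hs0.le (one_le_pow₀ (by linarith)))).trans
      ((le_mul_of_one_le_right hs0.le (by linarith)).trans hv1)
    exact_mod_cast this
  have hlu : L / 4 ≤ Real.log u := by
    refine le_trans ?_ (Real.log_le_log (by positivity) hu2)
    rw [Real.log_div (by positivity) two_ne_zero, Real.log_div hs0.ne' (by positivity),
      Real.log_pow, hls, ← hw]
    push_cast
    linarith
  have hlv : Real.log v ≤ L / 2 + w + 1 := by
    refine (Real.log_le_log (by linarith) hv2).trans ?_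
    rw [Real.log_mul two_ne_zero (by positivity), Real.log_mul hs0.ne' hL0.ne', hls, ← hw]
    linarith
  have hlvu : Real.log v - Real.log u ≤ 9 * w + 2 := by
    have : L / 2 - 8 * w - 1 ≤ Real.log u := by
      refine le_trans ?_ (Real.log_le_log (by positivity) hu2)
      rw [Real.log_div (by positivity) two_ne_zero, Real.log_div hs0.ne' (by positivity),
        Real.log_pow, hls, ← hw]
      push_cast
      linarith
    linarith
  have hyq : ∀ p q : ℕ, p ≤ N → v < q → (p - 1) / q ≤ y := fun p q hp hq => by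
    rw [hy]
    refine Nat.le_floor ?_
    refine Nat.cast_div_le.trans ?_
    refine (div_le_div₀ hN0.le (Nat.cast_le.2 ((Nat.sub_le p 1).trans hp)) (by positivity)
      (hv1.trans (Nat.cast_le.2 hq.le))).trans (le_of_eq ?_)
    rw [← hss]
    field_simp
  have hsub := card_le_card (filter_subset_filter P
    (sieveSet_subset a (z := z) (x₂ := u) (x₃ := v) (y := y) N hyq ha2))
  simp only [filter_union, filter_biUnion, filter_filter] at hsub
  have hsum := hsub.trans ((card_union_le _ _).trans (Nat.add_le_add_left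
    ((card_union_le _ _).trans (Nat.add_le_add_right (card_union_le _ _) _)) _))
  have hsum' := (Nat.cast_le (α := ℝ)).2 hsum
  push_cast at hsum'
  obtain ⟨la, hlaDef⟩ : ∃ la, la = Real.log |(a : ℝ)| := ⟨_, rfl⟩
  rw [← hlaDef] at hla ⊢
  have hw1 : 1 ≤ w + 1 := by linarith
  have hNL : 0 ≤ (N : ℝ) / L ^ 2 := by positivity
  -- the first range
  have hM1 : ((((Ioc z u).filter Nat.Prime).biUnion fun q =>
      (Icc 1 N).filter fun p => (p.Prime ∧ RootCond a q p) ∧ P p).card : ℝ) ≤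
      8 * logInt N / L + 2 * B * ((N : ℝ) / L ^ 2) := by
    refine (Nat.cast_le.2 card_biUnion_le).trans ?_
    push_cast
    refine (sum_le_sum fun q hq => ?_).trans ((sum_add_distrib
      (f := fun q : ℕ => logInt N * (1 / ((q : ℝ) * (q - 1))))
      (g := fun _ => 2 * B * (s * L ^ 5))).le.trans (add_le_add ?_ ?_))
    · rw [mem_filter, mem_Ioc] at hq
      have h1 := hcount q hq.2 (lt_of_le_of_lt hz₀ hq.1.1) N hN
      rw [Nat.totient_prime hq.2, Nat.cast_mul, Nat.cast_sub hq.2.one_le, Nat.cast_one,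
        ← hLdef, ← hs] at h1
      rw [mul_one_div]
      have hlq : Real.log q ≤ L := hLdef ▸ Real.log_le_log (by exact_mod_cast hq.2.pos)
        (((Nat.cast_le.2 hq.1.2).trans hus).trans
          ((div_le_self hs0.le (one_le_pow₀ (by linarith))).trans hsN))
      have h2 : B * (1 + Real.log q) * (s * L ^ 4) ≤ 2 * B * (s * L ^ 5) := by
        rw [show 2 * B * (s * L ^ 5) = B * (2 * L) * (s * L ^ 4) by ring]
        exact mul_le_mul_of_nonneg_right (mul_le_mul_of_nonneg_left (by linarith) hB)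
          (by positivity)
      have hq2 : (2 : ℝ) ≤ q := Nat.ofNat_le_cast.2 hq.2.two_le
      have h3 : w₀ * logInt N / ((q : ℝ) * (q - 1)) ≤ logInt N / ((q : ℝ) * (q - 1)) :=
        div_le_div_of_nonneg_right
          (mul_le_of_le_one_left (logInt_nonneg (by exact_mod_cast hN)) hw₀)
          (mul_nonneg (by linarith) (by linarith))
      simp only [condCount, ← and_assoc] at h1
      linarith
    · rw [← mul_sum]
      refine (mul_le_mul_of_nonneg_left (sum_inv_mul_pred_le hz1 u)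
        (logInt_nonneg (by exact_mod_cast hN))).trans ?_
      rw [mul_one_div, show 8 * logInt N / L = logInt N / (L / 8) by field_simp]
      exact div_le_div_of_nonneg_left (logInt_nonneg (by exact_mod_cast hN)) (by positivity) hz8
    · rw [sum_const, nsmul_eq_mul]
      refine (mul_le_mul_of_nonneg_right ((Nat.cast_le.2 ((card_filter_le _ _).trans
        (by rw [Nat.card_Ioc]; omega : (Ioc z u).card ≤ u))).trans hus) (by positivity)).trans ?_
      rw [show s / L ^ 8 * (2 * B * (s * L ^ 5)) = 2 * B * (s * s / L ^ 2) / L by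
        field_simp, hss]
      exact div_le_self (by positivity) (by linarith)
  -- the middle range
  have hM2 : ((((Ioc u v).filter Nat.Prime).biUnion fun q =>
      (Icc 1 N).filter fun p => (p.Prime ∧ p ≡ 1 [MOD q]) ∧ P p).card : ℝ) ≤
      8100 * ((N : ℝ) / L ^ 2 * (w + 1)) := by
    refine le_trans (Nat.cast_le.2 (card_le_card (biUnion_mono fun q _ p hp =>
      mem_filter.2 ⟨(mem_filter.1 hp).1, (mem_filter.1 hp).2.1⟩)))
      ((card_middle_le hu2' huv hN (by rw [← hLdef]; linarith)).trans ?_)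
    rw [← hLdef]
    refine (mul_le_mul_of_nonneg_left (div_le_div₀ (by linarith)
      (show Real.log v - Real.log u + 12 ≤ 14 * (w + 1) by linarith) (by positivity) hlu)
      (by positivity)).trans ?_
    rw [show 144 * (N : ℝ) / L * (14 * (w + 1) / (L / 4)) = 8064 * (N / L ^ 2 * (w + 1)) by
      field_simp; ring]
    exact mul_le_mul_of_nonneg_right (by norm_num) (by positivity)
  -- the large primes
  have hM3 : (((smallOrderSet a y).filter P).card : ℝ) ≤ 2 * (la + 1) * ((N : ℝ) / L ^ 2) := by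
    refine le_trans (Nat.cast_le.2 (card_filter_le _ _)) ((card_smallOrderSet_le ha2 y).trans ?_)
    rw [← hlaDef, show (N : ℝ) / L ^ 2 = (s / L) ^ 2 by rw [div_pow, sq s, hss]]
    have : (y : ℝ) ^ 2 ≤ (s / L) ^ 2 :=
      pow_le_pow_left₀ (Nat.cast_nonneg y) (hy ▸ Nat.floor_le (by positivity)) 2
    nlinarith
  rw [show (2 * B + 8100 + 2 * (la + 1)) * ((N : ℝ) / L) * ((w + 1) / L) =
    2 * B * ((N : ℝ) / L ^ 2) * (w + 1) + 8100 * ((N : ℝ) / L ^ 2 * (w + 1)) +
      2 * (la + 1) * ((N : ℝ) / L ^ 2) * (w + 1) by field_simp]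
  have e1 := le_mul_of_one_le_right (show 0 ≤ 2 * B * ((N : ℝ) / L ^ 2) by positivity) hw1
  have e3 := le_mul_of_one_le_right (show 0 ≤ 2 * (la + 1) * ((N : ℝ) / L ^ 2) by positivity) hw1
  linarith

/-- From the sieve and the ranges to the asymptotic. -/
theorem tendsto_card_filter_primRootSet {a : ℤ} {P : ℕ → Prop} {f : ℕ → ℝ} {c C C' : ℝ} {z₀ : ℕ}
    (hC : 0 ≤ C) (hf : Tendsto f atTop (𝓝 c))
    (hmain : ∀ N z : ℕ, 2 ≤ N → (z : ℝ) ≤ Real.log N / 4 →
      |(((sieveSet a ((Icc 1 z).filter Nat.Prime) N).filter P).card : ℝ) - logInt N * f z| ≤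
        C * ((2 : ℝ) ^ z * ((1 + Real.log N ^ 2) * (√N * Real.log N ^ 4))))
    (hrange : ∀ N : ℕ, 64 ≤ Real.log N →
      Real.log (Real.log N) ≤ Real.log N / 64 → z₀ ≤ ⌊Real.log N / 4⌋₊ →
        (((sieveSet a ((Icc 1 ⌊Real.log N / 4⌋₊).filter Nat.Prime) N).filter P).card : ℝ) -
          ((primRootSet a N).filter P).card ≤
        8 * logInt N / Real.log N +
          C' * (N / Real.log N) * ((Real.log (Real.log N) + 1) / Real.log N)) :
    Tendsto (fun N : ℕ => (((primRootSet a N).filter P).card : ℝ) * Real.log N / N) atTop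
      (𝓝 c) := by
  have hlog : Tendsto (fun N : ℕ => Real.log N) atTop atTop :=
    Real.tendsto_log_atTop.comp tendsto_natCast_atTop_atTop
  have hI : Tendsto (fun N : ℕ => logInt N * Real.log N / N) atTop (𝓝 1) :=
    tendsto_logInt.comp tendsto_natCast_atTop_atTop
  have hz : Tendsto (fun N : ℕ => ⌊Real.log N / 4⌋₊) atTop atTop :=
    tendsto_nat_floor_atTop.comp (hlog.atTop_div_const (by norm_num))
  obtain ⟨S, hS⟩ : ∃ S : ℕ → ℝ, S = fun N : ℕ =>
      (((sieveSet a ((Icc 1 ⌊Real.log N / 4⌋₊).filter Nat.Prime) N).filter P).card : ℝ) :=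
    ⟨_, rfl⟩
  have hev : ∀ᶠ N : ℕ in atTop, 2 ≤ N ∧ 64 ≤ Real.log N ∧
      Real.log (Real.log N) ≤ Real.log N / 64 ∧ z₀ ≤ ⌊Real.log N / 4⌋₊ := by
    filter_upwards [eventually_ge_atTop 2, hlog.eventually_ge_atTop 64,
      hlog.eventually (Real.isLittleO_log_id_atTop.def (show (0 : ℝ) < 1 / 64 by norm_num)),
      hz.eventually_ge_atTop z₀] with N h1 h2 h3 h4
    refine ⟨h1, h2, ?_, h4⟩
    rw [id_eq, Real.norm_of_nonneg (Real.log_nonneg (by linarith)),
      Real.norm_of_nonneg (by linarith)] at h3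
    linarith
  have hmainlim : Tendsto (fun N : ℕ => S N * Real.log N / N) atTop (𝓝 c) := by
    have h1 := hI.mul (hf.comp hz)
    rw [one_mul] at h1
    rw [tendsto_iff_norm_sub_tendsto_zero]
    have hsmall : Tendsto (fun N : ℕ => 2 * C * (Real.log N ^ 7 / (N : ℝ) ^ (1 / 4 : ℝ)))
        atTop (𝓝 0) := by
      have := ((isLittleO_log_rpow_rpow_atTop (7 : ℕ) (show (0 : ℝ) < 1 / 4 by norm_num)
        ).tendsto_div_nhds_zero.comp tendsto_natCast_atTop_atTop).const_mul (2 * C)
      simpa [Function.comp_def] using this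
    have hd := tendsto_iff_norm_sub_tendsto_zero.1 h1
    refine squeeze_zero' (Eventually.of_forall fun N => norm_nonneg _) ?_
      (by simpa using hsmall.add hd)
    filter_upwards [hev] with N hNev
    obtain ⟨hN, hL, -, -⟩ := hNev
    have hN0 : (0 : ℝ) < N := Nat.cast_pos.2 (by omega)
    have hzle : ((⌊Real.log N / 4⌋₊ : ℕ) : ℝ) ≤ Real.log N / 4 := Nat.floor_le (by linarith)
    have h2 := hmain N ⌊Real.log N / 4⌋₊ hN hzle
    refine (norm_sub_le_norm_sub_add_norm_sub _ (logInt N * Real.log N / N *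
      f ⌊Real.log N / 4⌋₊) _).trans
      (add_le_add ?_ le_rfl)
    rw [Real.norm_eq_abs,
      show S N * Real.log N / N - logInt N * Real.log N / N * f ⌊Real.log N / 4⌋₊ =
      (S N - logInt N * f ⌊Real.log N / 4⌋₊) *
        (Real.log N / N) by ring, abs_mul, abs_of_nonneg (show 0 ≤ Real.log N / N by positivity)]
    simp only [hS]
    refine (mul_le_mul_of_nonneg_right h2 (by positivity)).trans ?_
    have hpow : (2 : ℝ) ^ ⌊Real.log N / 4⌋₊ ≤ (N : ℝ) ^ (1 / 4 : ℝ) := by
      rw [← Real.rpow_natCast, Real.rpow_def_of_pos two_pos, Real.rpow_def_of_pos hN0]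
      refine Real.exp_le_exp.2 ?_
      nlinarith [Real.log_two_lt_d9, Real.log_two_gt_d9,
        Nat.cast_nonneg (α := ℝ) ⌊Real.log N / 4⌋₊]
    have hsqrt : √(N : ℝ) = (N : ℝ) ^ (1 / 4 : ℝ) * (N : ℝ) ^ (1 / 4 : ℝ) := by
      rw [Real.sqrt_eq_rpow, ← Real.rpow_add hN0]
      norm_num
    have hq0 : 0 < (N : ℝ) ^ (1 / 4 : ℝ) := Real.rpow_pos_of_pos hN0 _
    have hss := Real.mul_self_sqrt hN0.le
    refine (mul_le_mul_of_nonneg_right (mul_le_mul_of_nonneg_left (mul_le_mul hpow
      (mul_le_mul_of_nonneg_right (show 1 + Real.log N ^ 2 ≤ 2 * Real.log N ^ 2 by nlinarith)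
        (by positivity)) (by positivity) hq0.le) hC) (by positivity)).trans (le_of_eq ?_)
    rw [hsqrt] at hss ⊢
    field_simp
    linear_combination C * hss
  have herr : Tendsto (fun N : ℕ => 8 * (logInt N * Real.log N / N) * (Real.log N)⁻¹ +
      C' * ((Real.log (Real.log N) + 1) / Real.log N)) atTop (𝓝 0) := by
    have h1 : Tendsto (fun x : ℝ => (Real.log x + 1) / x) atTop (𝓝 0) := by
      simpa [add_div] using Real.isLittleO_log_id_atTop.tendsto_div_nhds_zero.add
        (tendsto_inv_atTop_zero (𝕜 := ℝ))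
    simpa using ((hI.const_mul 8).mul hlog.inv_tendsto_atTop).add ((h1.comp hlog).const_mul C')
  refine tendsto_of_tendsto_of_tendsto_of_le_of_le' (by simpa using hmainlim.sub herr) hmainlim
    ?_ ?_
  · filter_upwards [hev] with N hNev
    obtain ⟨hN, hL, hlL, hz₀⟩ := hNev
    have hN0 : (0 : ℝ) < N := Nat.cast_pos.2 (by omega)
    have h1 := mul_le_mul_of_nonneg_right (hrange N hL hlL hz₀)
      (show 0 ≤ Real.log N / N by positivity)
    simp only [hS]
    have e : (8 * logInt N / Real.log N + C' * (N / Real.log N) *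
        ((Real.log (Real.log N) + 1) / Real.log N)) * (Real.log N / N) =
        8 * (logInt N * Real.log N / N) * (Real.log N)⁻¹ +
          C' * ((Real.log (Real.log N) + 1) / Real.log N) := by
      field_simp
    rw [e, sub_mul, ← mul_div_assoc, ← mul_div_assoc] at h1
    linarith
  · filter_upwards with N
    simp only [hS]
    gcongr
    exact primRootSet_subset a (fun q hq => (mem_filter.1 hq).2) N

/-- A positive density gives infinitely many primes. -/
theorem infinite_of_tendsto {a : ℤ} {P : ℕ → Prop} {c : ℝ} (hc : c ≠ 0)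
    (h : Tendsto (fun N : ℕ => (((primRootSet a N).filter P).card : ℝ) * Real.log N / N) atTop
      (𝓝 c)) : {p : ℕ | p.Prime ∧ orderOf (a : ZMod p) = p - 1}.Infinite := by
  refine fun hfin => hc ?_
  obtain ⟨K, hK⟩ : ∃ K : ℝ, K = (hfin.toFinset.card : ℝ) := ⟨_, rfl⟩
  refine tendsto_nhds_unique h ?_
  have h0 : Tendsto (fun N : ℕ => K * (Real.log N / N)) atTop (𝓝 0) := by
    have := ((Real.isLittleO_log_id_atTop.tendsto_div_nhds_zero).comp
      tendsto_natCast_atTop_atTop).const_mul K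
    simpa [Function.comp_def] using this
  refine squeeze_zero (fun N => by
    have := Real.log_natCast_nonneg N
    positivity) (fun N => ?_) h0
  rw [hK, mul_div_assoc]
  refine mul_le_mul_of_nonneg_right (Nat.cast_le.2 (card_le_card fun p hp => ?_))
    (div_nonneg (Real.log_natCast_nonneg N) (Nat.cast_nonneg N))
  exact hfin.mem_toFinset.2 (mem_filter.1 (mem_filter.1 hp).1).2

variable {a : ℤ} (ha : GoodBase a) (hRH : KummerRH a)

include ha in
theorem log_abs_nonneg : 0 ≤ Real.log |(a : ℝ)| := log_abs_int_nonneg ha.ne_zero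

include ha in
theorem two_le_natAbs : 2 ≤ a.natAbs := by
  have h1 := ha.natAbs_ne_one
  have h2 := Int.natAbs_ne_zero.2 ha.ne_zero
  omega

include ha hRH in
theorem exists_split_bound : ∃ B : ℝ, 0 ≤ B ∧ ∀ k : ℕ, Squarefree k → ∀ N : ℕ, 2 ≤ N →
    |(condCount a (fun _ => True) k N : ℝ) - 1 * logInt N / ((k * k.totient : ℕ) : ℝ)| ≤
      B * (1 + Real.log k) * (√N * Real.log N ^ 4) := by
  obtain ⟨A, hA, h⟩ := exists_splitCount_le
  have hla := log_abs_nonneg ha
  refine ⟨A * (1 + Real.log |(a : ℝ)|), by positivity, fun k hk N hN => ?_⟩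
  rw [condCount_true, one_mul]
  refine (h a ha k hk (hRH k hk) N hN).trans ?_
  refine mul_le_mul_of_nonneg_right ?_ (by positivity)
  nlinarith [mul_nonneg (mul_nonneg hA hla) (Real.log_natCast_nonneg k)]

include ha hRH in
/-- The sieve up to `log N / 4`. -/
theorem exists_sieve_main : ∃ C : ℝ, 0 ≤ C ∧ ∀ N z : ℕ, 2 ≤ N → (z : ℝ) ≤ Real.log N / 4 →
    |((sieveSet a ((Icc 1 z).filter Nat.Prime) N).card : ℝ) -
        logInt N * ∏ q ∈ (Icc 1 z).filter Nat.Prime, artinFactor q| ≤
      C * ((2 : ℝ) ^ z * ((1 + Real.log N ^ 2) * (√N * Real.log N ^ 4))) := by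
  obtain ⟨B, hB, h⟩ := exists_split_bound ha hRH
  refine ⟨B, hB, fun N z hN hz => ?_⟩
  simpa using abs_sieve_sub_le hB subset_rfl hz fun T hT =>
    h _ (squarefree_prod fun q hq => (mem_filter.1 (hT hq)).2) N hN

include ha hRH in
/-- What the three ranges hold. -/
theorem exists_ranges_le : ∃ C : ℝ, 0 ≤ C ∧ ∀ N : ℕ, 64 ≤ Real.log N →
    Real.log (Real.log N) ≤ Real.log N / 64 →
      ((sieveSet a ((Icc 1 ⌊Real.log N / 4⌋₊).filter Nat.Prime) N).card : ℝ) -
        (primRootSet a N).card ≤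
      8 * logInt N / Real.log N +
        C * (N / Real.log N) * ((Real.log (Real.log N) + 1) / Real.log N) := by
  obtain ⟨B, hB, h⟩ := exists_split_bound ha hRH
  obtain ⟨C, hC, hr⟩ := exists_ranges_le_of_count (two_le_natAbs ha) hB le_rfl (z₀ := 0)
    fun q hq _ N hN => (abs_le.1 (h q hq.squarefree N hN)).2
  exact ⟨C, hC, fun N hL hlL => by simpa using hr N hL hlL (Nat.zero_le _)⟩

include ha hRH in
/-- **Hooley's theorem.** -/
theorem tendsto_primRootSet :
    Tendsto (fun N : ℕ => ((primRootSet a N).card : ℝ) * Real.log N / N) atTop (𝓝 artinConst) := by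
  obtain ⟨C, hC, hmain⟩ := exists_sieve_main ha hRH
  obtain ⟨C', -, hrange⟩ := exists_ranges_le ha hRH
  simpa using tendsto_card_filter_primRootSet (P := fun _ => True) (z₀ := 0) hC
    tendsto_artinPartial (fun N z hN hz => by simpa using hmain N z hN hz)
    fun N hL hlL _ => by simpa using hrange N hL hlL

include ha hRH in
/-- Infinitely many such primes. -/
theorem infinite_primitive_root : {p : ℕ | p.Prime ∧ orderOf (a : ZMod p) = p - 1}.Infinite :=
  infinite_of_tendsto (P := fun _ => True) artinConst_pos.ne'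
    (by simpa using tendsto_primRootSet ha hRH)

end FA.ArtinHooley

end
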