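import Mathlib.NumberTheory.NumberField.Cyclotomic.Galois
import Mathlib.NumberTheory.NumberField.Discriminant.Different
import Mathlib.FieldTheory.KummerExtension

/-!
# A squarefree integer is no power in a cyclotomic field of squarefree conductor

For `k` squarefree and `a ≢ 1 (mod 4)` squarefree, `a ≠ -1`, and a prime `q ∣ k`: `a` is no `q`-th
power in `ℚ(ζ_k)`. For odd `q` the field is abelian; for `q = 2` it is unramified at `2`.
-/

set_option autoImplicit false
set_option linter.style.haveILetI false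

noncomputable section

open Polynomial NumberField
open scoped Classical

namespace FA.ArtinHooley

/-- The integers of Hooley's theorem treated here. -/
structure GoodBase (a : ℤ) : Prop where
  sqfree : Squarefree a
  mod_four : a % 4 ≠ 1
  ne_neg_one : a ≠ -1

theorem GoodBase.ne_zero {a : ℤ} (h : GoodBase a) : a ≠ 0 := h.sqfree.ne_zero

theorem GoodBase.natAbs_ne_one {a : ℤ} (h : GoodBase a) : a.natAbs ≠ 1 := fun e => by
  rcases Int.natAbs_eq a with h' | h' <;> rw [e] at h'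
  · exact h.mod_four (by rw [h']; norm_num)
  · exact h.ne_neg_one (by simpa using h')

/-- `a` is no proper power in `ℚ`. -/
theorem GoodBase.not_pow_rat {a : ℤ} (h : GoodBase a) {q : ℕ} (hq : 2 ≤ q) (b : ℚ) :
    b ^ q ≠ (a : ℚ) := fun hb => by
  have hint : IsIntegral ℤ b := IsIntegral.of_pow (by omega : 0 < q) (by
    rw [hb]; exact isIntegral_algebraMap (R := ℤ) (A := ℚ) (x := a))
  obtain ⟨z, rfl⟩ := IsIntegrallyClosed.isIntegral_iff.1 hint
  rw [algebraMap_int_eq, eq_intCast, ← Int.cast_pow, Int.cast_inj] at hb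
  have hu : IsUnit z := h.sqfree z (hb ▸ (pow_two z).symm ▸ pow_dvd_pow z hq)
  have := hu.pow q
  rw [hb, Int.isUnit_iff_natAbs_eq] at this
  exact h.natAbs_ne_one this

variable {M : Type*} [Field M] [NumberField M] {k : ℕ} [NeZero k]

omit [NeZero k] in
/-- An integer with no rational `q`-th root, `q` odd, has none in a cyclotomic field. -/
theorem not_pow_of_odd [IsCyclotomicExtension {k} ℚ M] {a : ℤ} (ha0 : a ≠ 0) {q : ℕ}
    (hq : q.Prime) (hodd : q ≠ 2) (hrat : ∀ c : ℚ, c ^ q ≠ (a : ℚ)) (b : M) :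
    b ^ q ≠ (a : M) := fun hb => by
  haveI : IsAbelianGalois ℚ M := IsCyclotomicExtension.isAbelianGalois {k} ℚ M
  have hirr : Irreducible (X ^ q - C (a : ℚ)) :=
    X_pow_sub_C_irreducible_of_prime hq hrat
  have hmin : minpoly ℚ b = X ^ q - C (a : ℚ) :=
    (minpoly.eq_of_irreducible_of_monic hirr (by simp [hb])
      (monic_X_pow_sub_C _ hq.ne_zero)).symm
  obtain ⟨F, hF⟩ : ∃ F : IntermediateField ℚ M, F = IntermediateField.adjoin ℚ {b} := ⟨_, rfl⟩
  have hbint : IsIntegral ℚ b := Algebra.IsIntegral.isIntegral b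
  have hrank : Module.finrank ℚ F = q := by
    rw [hF, IntermediateField.adjoin.finrank hbint, hmin, natDegree_X_pow_sub_C]
  obtain ⟨β, hβ⟩ : ∃ β : F, (β : M) = b :=
    ⟨⟨b, hF ▸ IntermediateField.mem_adjoin_simple_self ℚ b⟩, rfl⟩
  haveI : IsAbelianGalois ℚ F := IsAbelianGalois.of_algHom F.val
  have hsplit : ((X ^ q - C (a : ℚ)).map (algebraMap ℚ F)).Splits := by
    have := (IsGalois.splits ℚ β : ((minpoly ℚ β).map (algebraMap ℚ F)).Splits)
    rwa [← minpoly.algebraMap_eq (algebraMap F M).injective, show algebraMap F M β = b from hβ,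
      hmin] at this
  have hsep : (X ^ q - C (a : ℚ)).Separable := hirr.separable
  have hcard : Fintype.card ((X ^ q - C (a : ℚ)).rootSet F) = q := by
    rw [card_rootSet_eq_natDegree hsep hsplit, natDegree_X_pow_sub_C]
  obtain ⟨γ, hγ, hne⟩ : ∃ γ ∈ (X ^ q - C (a : ℚ)).rootSet F, γ ≠ β := by
    by_contra hcon
    push Not at hcon
    have : Fintype.card ((X ^ q - C (a : ℚ)).rootSet F) ≤ 1 :=
      Fintype.card_le_one_iff.2 fun x y => Subtype.ext ((hcon _ x.2).trans (hcon _ y.2).symm)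
    have := hq.two_le
    omega
  have hβq : β ^ q = (a : F) := Subtype.ext (by push_cast; rw [hβ, hb])
  have hγq : γ ^ q = (a : F) := by
    have := (mem_rootSet.1 hγ).2
    simpa [sub_eq_zero] using this
  have ha : (a : F) ≠ 0 := Int.cast_ne_zero.2 ha0
  have hβ0 : β ≠ 0 := fun e => ha (by rw [← hβq, e, zero_pow hq.ne_zero])
  have hω : IsPrimitiveRoot (γ / β) q := by
    haveI : Fact q.Prime := ⟨hq⟩
    rw [IsPrimitiveRoot.iff_orderOf]
    refine orderOf_eq_prime ?_ fun e => hne ((div_eq_one_iff_eq hβ0).1 e)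
    rw [div_pow, hβq, hγq, div_self ha]
  have hdvd : (minpoly ℚ (γ / β)).natDegree ∣ Module.finrank ℚ F :=
    minpoly.degree_dvd (Algebra.IsIntegral.isIntegral _)
  rw [← cyclotomic_eq_minpoly_rat hω hq.pos, natDegree_cyclotomic, Nat.totient_prime hq,
    hrank] at hdvd
  rcases (Nat.dvd_prime hq).1 hdvd with h1 | h1
  · omega
  · have := hq.two_le
    omega

omit [NeZero k] in
/-- The odd primes: `ℚ(ζ_k)` is abelian. -/
theorem GoodBase.not_pow_odd [IsCyclotomicExtension {k} ℚ M] {a : ℤ} (h : GoodBase a) {q : ℕ}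
    (hq : q.Prime) (hodd : q ≠ 2) (b : M) : b ^ q ≠ (a : M) :=
  not_pow_of_odd (k := k) h.ne_zero hq hodd (h.not_pow_rat hq.two_le) b

/-- The discriminant of `ℚ(ζ_k)`, `k` squarefree, is odd. -/
theorem odd_natAbs_discr [IsCyclotomicExtension {k} ℚ M] (hk : Squarefree k) :
    Odd (discr M).natAbs := by
  rw [IsCyclotomicExtension.Rat.natAbs_discr k M]
  rcases Nat.even_or_odd k with he | ho
  · obtain ⟨j, rfl⟩ := he.two_dvd
    have hj : Odd j := by
      rcases Nat.even_or_odd j with hej | hoj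
      · obtain ⟨i, rfl⟩ := hej.two_dvd
        exact absurd (hk 2 ⟨i, by ring⟩) (by simp)
      · exact hoj
    have h2 : 2 ∈ (2 * j).primeFactors :=
      Nat.mem_primeFactors.2 ⟨Nat.prime_two, dvd_mul_right 2 j, NeZero.ne _⟩
    obtain ⟨c, hc⟩ := Finset.dvd_prod_of_mem
      (fun p => p ^ ((2 * j).totient / (p - 1))) h2
    obtain ⟨d, hd⟩ := Nat.prod_primeFactors_pow_totient_ediv_dvd (NeZero.pos (2 * j))
    simp only [Nat.add_one_sub_one, Nat.div_one] at hc
    rw [hd, Nat.mul_div_cancel_left _ (Finset.prod_pos fun p hp =>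
      pow_pos (Nat.prime_of_mem_primeFactors hp).pos _)]
    rw [mul_pow, hc, mul_assoc] at hd
    exact (Nat.odd_mul.1 (Nat.eq_of_mul_eq_mul_left (pow_pos two_pos _) hd ▸ hj.pow)).2
  · obtain ⟨d, hd⟩ := Nat.prod_primeFactors_pow_totient_ediv_dvd (NeZero.pos k)
    rw [hd, Nat.mul_div_cancel_left _ (Finset.prod_pos fun p hp =>
      pow_pos (Nat.prime_of_mem_primeFactors hp).pos _)]
    exact (Nat.odd_mul.1 (hd ▸ ho.pow)).2

/-- The prime `2`: `ℚ(ζ_k)` is unramified there. -/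
theorem GoodBase.not_sq [IsCyclotomicExtension {k} ℚ M] (hk : Squarefree k) {a : ℤ}
    (h : GoodBase a) (b : M) : b ^ 2 ≠ (a : M) := fun hb => by
  have hbint : IsIntegral ℤ b := IsIntegral.of_pow two_pos (by
    rw [hb]; exact isIntegral_algebraMap (R := ℤ) (A := M) (x := a))
  obtain ⟨β, hβ⟩ : ∃ β : 𝓞 M, (β : M) = b := ⟨⟨b, hbint⟩, rfl⟩
  have hβq : β ^ 2 = (a : 𝓞 M) := RingOfIntegers.ext (by
    simp only [map_pow, map_intCast]
    exact (congrArg (· ^ 2) hβ).trans hb)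
  obtain ⟨P, hP, h2P⟩ := Ideal.exists_le_maximal (Ideal.span {(2 : 𝓞 M)}) fun e => by
    rw [Ideal.span_singleton_eq_top] at e
    have := Int.isUnit_iff_natAbs_eq.1 (IsUnit.map (Algebra.norm ℤ) e)
    rw [show (2 : 𝓞 M) = algebraMap ℤ (𝓞 M) 2 by simp, Algebra.norm_algebraMap,
      Int.natAbs_pow] at this
    simp at this
    exact absurd this Module.finrank_pos.ne'
  have h2 : (2 : 𝓞 M) ∈ P := h2P (Ideal.mem_span_singleton_self _)
  -- `γ ^ 2 - c γ = 2 m` with `m` odd and `c` a multiple of `2`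
  obtain ⟨γ, c, m, hm, he⟩ : ∃ (γ : 𝓞 M) (c m : ℤ), Odd m ∧
      γ ^ 2 - (2 * c : ℤ) * γ = ((2 * m : ℤ) : 𝓞 M) := by
    have h4 : a % 4 ≠ 0 := fun e => by
      have := h.sqfree 2 (by rw [← Int.dvd_iff_emod_eq_zero] at e; simpa using e)
      simp [Int.isUnit_iff] at this
    have h1 := h.mod_four
    rcases (show a % 4 = 2 ∨ a % 4 = 3 by omega) with e | e
    · refine ⟨β, 0, a / 2, ⟨a / 4, by omega⟩, ?_⟩
      rw [show 2 * (a / 2) = a by omega, hβq]
      simp
    · refine ⟨β + 1, 1, (a - 1) / 2, ⟨a / 4, by omega⟩, ?_⟩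
      rw [show 2 * ((a - 1) / 2) = a - 1 by omega]
      push_cast
      rw [← hβq]
      ring
  have hγ : γ ∈ P := by
    refine hP.isPrime.mem_of_pow_mem 2 ?_
    rw [show γ ^ 2 = ((2 * m : ℤ) : 𝓞 M) + (2 * c : ℤ) * γ by rw [← he]; ring]
    push_cast
    exact P.add_mem (P.mul_mem_right _ h2) (P.mul_mem_right _ (P.mul_mem_right _ h2))
  have h2sq : (2 : 𝓞 M) ∈ P ^ 2 := by
    have hm2 : (2 : 𝓞 M) * (m : 𝓞 M) ∈ P ^ 2 := by
      rw [show (2 : 𝓞 M) * (m : 𝓞 M) = γ * γ - (2 * (c : 𝓞 M)) * γ by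
        push_cast at he; rw [← he]; ring, pow_two]
      exact (P * P).sub_mem (Ideal.mul_mem_mul hγ hγ)
        (Ideal.mul_mem_mul (P.mul_mem_right _ h2) hγ)
    obtain ⟨j, rfl⟩ := hm
    rw [show (2 : 𝓞 M) = 2 * ((2 * j + 1 : ℤ) : 𝓞 M) - 2 * 2 * (j : 𝓞 M) by push_cast; ring]
    exact (P ^ 2).sub_mem hm2 ((P ^ 2).mul_mem_right _ (by
      rw [pow_two]; exact Ideal.mul_mem_mul h2 h2))
  haveI : (Ideal.span {(2 : ℤ)}).IsMaximal :=
    PrincipalIdealRing.isMaximal_of_irreducible Int.prime_two.irreducible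
  have hdvd : P ^ 1 ∣ differentIdeal ℤ (𝓞 M) := by
    refine pow_sub_one_dvd_differentIdeal ℤ (p := Ideal.span {(2 : ℤ)}) P 2 (by simp) ?_
    rw [Ideal.map_span, Set.image_singleton, Ideal.dvd_iff_le, Ideal.span_singleton_le_iff_mem]
    simpa using h2sq
  rw [pow_one] at hdvd
  have hN : Ideal.absNorm P ∣ (discr M).natAbs :=
    absNorm_differentIdeal M (𝒪 := 𝓞 M) ▸ map_dvd Ideal.absNorm hdvd
  have hN2 : 2 ∣ Ideal.absNorm P := by
    have h5 : Ideal.absNorm P ∣ 2 ^ Module.finrank ℚ M := by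
      have := Ideal.absNorm_dvd_absNorm_of_le h2P
      rw [Ideal.absNorm_span_singleton, show (2 : 𝓞 M) = algebraMap ℤ (𝓞 M) 2 by simp,
        Algebra.norm_algebraMap, Int.natAbs_pow, RingOfIntegers.rank] at this
      exact this
    obtain ⟨i, -, hi⟩ := (Nat.dvd_prime_pow Nat.prime_two).1 h5
    rw [hi]
    refine dvd_pow_self 2 fun e => hP.ne_top (Ideal.absNorm_eq_one_iff.1 ?_)
    rw [hi, e, pow_zero]
  exact (Nat.not_even_iff_odd.2 (odd_natAbs_discr (M := M) hk))
    (even_iff_two_dvd.2 (hN2.trans hN))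

/-- **No `q`-th power.** -/
theorem GoodBase.not_pow [IsCyclotomicExtension {k} ℚ M] (hk : Squarefree k) {a : ℤ}
    (h : GoodBase a) {q : ℕ} (hq : q.Prime) (b : M) : b ^ q ≠ (a : M) := by
  rcases eq_or_ne q 2 with rfl | hne
  · exact h.not_sq (k := k) hk b
  · exact h.not_pow_odd (k := k) hq hne b

end FA.ArtinHooley

end
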