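import Fermat.Agent.DedekindPrimeIdeals.Psi
import Fermat.Agent.PiltzDivisor.Line
import Fermat.Agent.PiltzDivisor.Mellin

/-!
# Summatory functions from a continuation to `re s > 1/2`

If `f ≥ 0` has Dirichlet series `σ / (s - 1) + D s` with `D = O (B / δ ^ 3 (1 + |im s|) ^ δ)` on
`1/2 + 2 δ ≤ re s ≤ 2` for every `δ`, then `∑_{n ≤ x} f n = σ x + O ((B + σ) √x log ^ 4 x)`:
Perron's formula for the moment on `re s = 1/2 + 2/L`, differenced with step `√x`. Partial
summation turns this into the bound for the sum weighted by `1 / log n`.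
-/

set_option autoImplicit false

noncomputable section

open Complex MeasureTheory Filter
open FA.DedekindPIT (momentSum partialSum momentSum_sub_bounds)
open FA.PiltzDivisor (lineInt lineInt_shift lineInt_diff integrable_line line_integrable_inv_sq
  upPair_inversion one_add_sq_le_normSq)
open FA.SiegelWalfisz (kernelMul smoothSum smoothSum_eq)
open scoped Real

namespace FA.ArtinHooley

/-- The kernel without the main term. -/
def restKer (σ : ℝ) (D : ℂ → ℂ) (s : ℂ) : ℂ := (D s - σ) / (s * (s + 1))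

section

variable {f : ℕ → ℝ} {σ B : ℝ} {D : ℂ → ℂ}
  (hser : ∀ s : ℂ, 1 < s.re → LSeriesSummable (fun n => (f n : ℂ)) s ∧
    LSeries (fun n => (f n : ℂ)) s = (σ : ℂ) * (s - 1)⁻¹ + D s)
  (hD : ∀ s : ℂ, 1 / 2 < s.re → DifferentiableAt ℂ D s)
  (hB : ∀ δ : ℝ, 0 < δ → δ ≤ 1 / 4 → ∀ u v : ℝ, 1 / 2 + 2 * δ ≤ u → u ≤ 2 →
    ‖D ((u : ℂ) + v * I)‖ ≤ B / δ ^ 3 * (1 + |v|) ^ δ)

include hD in
theorem differentiableAt_restKer {c : ℝ} (hc : 1 / 2 < c) {w : ℂ} (hw : c ≤ w.re) :
    DifferentiableAt ℂ (restKer σ D) w := by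
  refine ((hD w (hc.trans_le hw)).sub_const _).div
    (differentiableAt_id.mul (differentiableAt_id.add_const 1)) (mul_ne_zero ?_ ?_) <;>
  · intro h
    have := congrArg Complex.re h
    simp at this
    linarith

include hB in
theorem norm_restKer_le (hσ : 0 ≤ σ) {δ : ℝ} (hδ : 0 < δ) (hδ4 : δ ≤ 1 / 4) :
    ∀ u v : ℝ, 1 / 2 + 2 * δ ≤ u → u ≤ 2 →
      ‖restKer σ D ((u : ℂ) + v * I)‖ ≤ 8 * (B + σ) / δ ^ 3 * (1 + |v|) ^ (δ - 2) := by
  intro u v hu hu2
  have h1 := hB δ hδ hδ4 u v hu hu2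
  obtain ⟨s, hs⟩ : ∃ s : ℂ, s = (u : ℂ) + v * I := ⟨_, rfl⟩
  rw [← hs] at h1 ⊢
  have hre : s.re = u := by simp [hs]
  have him : s.im = v := by simp [hs]
  have hden : (1 + |v|) ^ 2 / 8 ≤ ‖s * (s + 1)‖ := by
    rw [norm_mul]
    have hr : |u| ≤ ‖s‖ := hre ▸ abs_re_le_norm s
    have hi : |v| ≤ ‖s‖ := him ▸ abs_im_le_norm s
    have hi1 : |v| ≤ ‖s + 1‖ := by simpa [him] using abs_im_le_norm (s + 1)
    have hr1 : 1 ≤ ‖s + 1‖ := le_trans (by simp [hre]; linarith) (re_le_norm (s + 1))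
    rw [abs_of_pos (by linarith : 0 < u)] at hr
    nlinarith [abs_nonneg v]
  have hnum : ‖D s - σ‖ ≤ (B + σ) / δ ^ 3 * (1 + |v|) ^ δ := by
    have h4 : σ ≤ σ / δ ^ 3 * (1 + |v|) ^ δ := by
      refine le_trans ?_ (le_mul_of_one_le_right (by positivity)
        (Real.one_le_rpow (by linarith [abs_nonneg v]) hδ.le))
      rw [le_div_iff₀ (by positivity)]
      exact mul_le_of_le_one_right hσ (pow_le_one₀ hδ.le (by linarith))
    refine (norm_sub_le _ _).trans ?_
    rw [Complex.norm_real, Real.norm_of_nonneg hσ, add_div, add_mul]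
    linarith
  rw [restKer, norm_div]
  refine (div_le_div₀ (le_trans (norm_nonneg _) hnum) hnum (by positivity) hden).trans
    (le_of_eq ?_)
  rw [Real.rpow_sub (by positivity), Real.rpow_two]
  field_simp

include hser hD hB in
/-- **Perron's formula.** -/
theorem momentSum_eq_lineInt (hσ : 0 ≤ σ) {δ x : ℝ} (hδ : 0 < δ) (hδ4 : δ ≤ 1 / 4) (hx : 1 < x) :
    (momentSum f x : ℂ) =
      ((σ * ((x ^ 2 - 1) / 2) : ℝ) : ℂ) + lineInt (restKer σ D) (1 / 2 + 2 * δ) x := by
  have hx0 : 0 < x := by linarith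
  have hd : ∀ w : ℂ, 1 / 2 + 2 * δ ≤ w.re → DifferentiableAt ℂ (restKer σ D) w := fun w hw =>
    differentiableAt_restKer hD (by linarith) hw
  have hG := norm_restKer_le hB hσ hδ hδ4
  have hperron := smoothSum_eq (f := fun n => (f n : ℂ))
    (F := fun s => (σ : ℂ) * (s - 1)⁻¹ + D s) hx0 one_lt_two
    (hser _ (by simp)).1 fun s hs => (hser s hs).2
  have hS : (momentSum f x : ℂ) = (x : ℂ) * smoothSum (fun n => (f n : ℂ)) x := by
    rw [smoothSum, Finset.mul_sum, momentSum, ofReal_sum]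
    refine Finset.sum_congr rfl fun n _ => ?_
    have : (x : ℂ) ≠ 0 := ofReal_ne_zero.2 hx0.ne'
    push_cast
    field_simp
  obtain ⟨w, hw⟩ : ∃ w : ℝ → ℂ, w = fun v : ℝ => ((2 : ℝ) : ℂ) + (v : ℂ) * I := ⟨_, rfl⟩
  have hwre : ∀ v, (w v).re = 2 := fun v => by simp [hw]
  have hne : ∀ v, w v - 1 ≠ 0 ∧ w v ≠ 0 ∧ w v + 1 ≠ 0 := fun v => by
    refine ⟨?_, ?_, ?_⟩ <;> intro h <;> have h' := congrArg Complex.re h <;>
      norm_num [hwre] at h'
  obtain ⟨T, hT⟩ : ∃ T : ℝ → ℂ, T = fun v =>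
      (1 / 2 : ℂ) * ((x : ℂ) ^ (w v + 1) * (1 / (w v - 1) - 1 / (w v + 1))) := ⟨_, rfl⟩
  have hwc : Continuous w := hw ▸ by fun_prop
  have hiT : Integrable T := by
    refine line_integrable_inv_sq (C := x ^ (3 : ℝ)) (hT ▸ continuous_const.mul
      (((hwc.add continuous_const).const_cpow (Or.inl (ofReal_ne_zero.2 hx0.ne'))).mul
        ((continuous_const.div (hwc.sub continuous_const) fun v => (hne v).1).sub
          (continuous_const.div (hwc.add continuous_const) fun v => (hne v).2.2)))) fun v => ?_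
    rw [hT, norm_mul, norm_mul, norm_cpow_eq_rpow_re_of_pos hx0, add_re, hwre, one_re,
      div_sub_div _ _ (hne v).1 (hne v).2.2,
      show (1 : ℂ) * (w v + 1) - (w v - 1) * 1 = 2 by ring]
    simp only [norm_div, norm_mul, Complex.norm_two, norm_one]
    have h1 : 1 + v ^ 2 ≤ ‖w v - 1‖ ^ 2 := by
      rw [hw, show ((2 : ℝ) : ℂ) + (v : ℂ) * I - 1 = ((1 : ℝ) : ℂ) + (v : ℂ) * I by
        push_cast; ring]
      exact one_add_sq_le_normSq v le_rfl
    have h3 : 1 + v ^ 2 ≤ ‖w v + 1‖ ^ 2 := by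
      rw [hw, show ((2 : ℝ) : ℂ) + (v : ℂ) * I + 1 = ((3 : ℝ) : ℂ) + (v : ℂ) * I by
        push_cast; ring]
      exact one_add_sq_le_normSq v (by norm_num)
    rw [show (1 / 2 : ℝ) * (x ^ (2 + 1 : ℝ) * (2 / (‖w v - 1‖ * ‖w v + 1‖))) =
      x ^ (3 : ℝ) / (‖w v - 1‖ * ‖w v + 1‖) by norm_num; ring]
    refine div_le_div_of_nonneg_left (by positivity) (by positivity) ?_
    rw [← pow_le_pow_iff_left₀ (by positivity) (by positivity) two_ne_zero, mul_pow,
      sq (1 + v ^ 2)]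
    exact mul_le_mul h1 h3 (by positivity) (by positivity)
  have hiG := integrable_line hd (show δ ≤ 1 / 2 by linarith) hG hx0
    (show 1 / 2 + 2 * δ ≤ 2 by linarith) le_rfl
  have hint : ∫ v : ℝ, (x : ℂ) * kernelMul (fun s => (σ : ℂ) * (s - 1)⁻¹ + D s) x
      (((2 : ℝ) : ℂ) + v * I) = (∫ v : ℝ, (σ : ℂ) * T v) +
        ∫ v : ℝ, (x : ℂ) ^ (((2 : ℝ) : ℂ) + (v : ℂ) * I + 1) *
          restKer σ D (((2 : ℝ) : ℂ) + (v : ℂ) * I) := by
    rw [← integral_add (hiT.const_mul _) hiG]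
    refine integral_congr_ae (Eventually.of_forall fun v => ?_)
    obtain ⟨a1, a2, a3⟩ := hne v
    simp only [hw] at a1 a2 a3
    simp only [hT, kernelMul, hw, restKer]
    rw [cpow_add _ (1 : ℂ) (ofReal_ne_zero.2 hx0.ne'), cpow_one]
    generalize D _ = d
    field_simp
    ring
  rw [hS, hperron, mul_smul_comm, ← integral_const_mul, hint, smul_add, ← lineInt,
    lineInt_shift hd (show δ ≤ 1 / 2 by linarith) hG hx.le (by linarith)]
  congr 1
  rw [integral_const_mul, hT]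
  simp only [hw]
  rw [integral_const_mul, ← mul_smul_comm, ← mul_smul_comm, upPair_inversion hx]
  push_cast
  ring

include hser hD hB in
/-- **The summatory function.** -/
theorem partialSum_sub_le_of_continuation (hf : ∀ n, 1 ≤ n → 0 ≤ f n) (hσ : 0 ≤ σ) (hB0 : 0 ≤ B)
    {x : ℝ} (hx : 9 ≤ x) :
    |partialSum f x - σ * x| ≤
      (128 * Real.exp 4 + 1) * (B + σ) * (√x * (Real.log x + 4) ^ 4) := by
  have hx0 : 0 < x := by linarith
  obtain ⟨L, hL⟩ : ∃ L, L = Real.log x + 4 := ⟨_, rfl⟩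
  have hl0 : 0 ≤ Real.log x := Real.log_nonneg (by linarith)
  have hL4 : 4 ≤ L := by linarith
  rw [← hL]
  obtain ⟨δ, hδ⟩ : ∃ δ, δ = 1 / L := ⟨_, rfl⟩
  have hδ0 : 0 < δ := hδ ▸ by positivity
  have hδ4 : δ ≤ 1 / 4 := hδ ▸ one_div_le_one_div_of_le (by norm_num) hL4
  obtain ⟨c, hc⟩ : ∃ c, c = 1 / 2 + 2 * δ := ⟨_, rfl⟩
  have hd : ∀ w : ℂ, c ≤ w.re → DifferentiableAt ℂ (restKer σ D) w := fun w hw =>
    differentiableAt_restKer hD (by linarith) hw
  have hG := norm_restKer_le hB hσ hδ0 hδ4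
  rw [← hc] at hG
  obtain ⟨C, hC⟩ : ∃ C, C = 8 * (B + σ) / δ ^ 3 := ⟨_, rfl⟩
  rw [← hC] at hG
  have hC0 : 0 ≤ C := hC ▸ by positivity
  obtain ⟨h, hh⟩ : ∃ h, h = √x := ⟨_, rfl⟩
  have hh3 : 3 ≤ h := hh ▸ Real.le_sqrt_of_sq_le (by linarith)
  have hh0 : 0 < h := by linarith
  have hhx : 2 * h ≤ x := by
    have := Real.mul_self_sqrt hx0.le
    rw [← hh] at this
    nlinarith
  obtain ⟨P, hP⟩ : ∃ P, P = 128 * Real.exp 4 * (B + σ) * (√x * L ^ 4) := ⟨_, rfl⟩
  have hstep : ∀ y : ℝ, 1 < y → y ≤ x → h ≤ y →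
      |momentSum f (y + h) - momentSum f y - σ * (h * (y + h / 2))| ≤ P * h := by
    intro y hy hyx hhy
    have e : ∀ z, 1 < z → momentSum f z =
        σ * ((z ^ 2 - 1) / 2) + (lineInt (restKer σ D) c z).re := fun z hz => by
      have := congrArg Complex.re (momentSum_eq_lineInt hser hD hB hσ hδ0 hδ4 hz)
      rwa [ofReal_re, add_re, ofReal_re, ← hc] at this
    rw [e _ (by linarith), e _ hy,
      show σ * (((y + h) ^ 2 - 1) / 2) + (lineInt (restKer σ D) c (y + h)).re -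
        (σ * ((y ^ 2 - 1) / 2) + (lineInt (restKer σ D) c y).re) - σ * (h * (y + h / 2)) =
        (lineInt (restKer σ D) c (y + h)).re - (lineInt (restKer σ D) c y).re by ring, ← sub_re]
    refine (Complex.abs_re_le_norm _).trans ((lineInt_diff hd (by linarith) hG (by linarith)
      (by linarith) hδ0 hC0 hy.le hh0 hhy).trans ?_)
    have hxL : ∀ r : ℝ, 0 < r → r ≤ x → r ^ (2 * δ) ≤ Real.exp 2 := fun r hr hrx => by
      refine (Real.rpow_le_rpow hr.le hrx (by positivity)).trans ?_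
      rw [Real.rpow_def_of_pos hx0]
      refine Real.exp_le_exp.2 ?_
      rw [hδ, show Real.log x * (2 * (1 / L)) = 2 * (Real.log x / L) by ring]
      have : Real.log x / L ≤ 1 := (div_le_one (by linarith)).2 (by linarith)
      linarith
    have h1 : y ^ c * (y / h) ^ (2 * δ) ≤ √x * Real.exp 4 := by
      rw [hc, Real.rpow_add (by linarith : 0 < y), ← Real.sqrt_eq_rpow, mul_assoc,
        show Real.exp 4 = Real.exp 2 * Real.exp 2 by rw [← Real.exp_add]; norm_num]
      have hyh : y / h ≤ x := (div_le_self (by linarith) (by linarith)).trans hyx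
      exact mul_le_mul (Real.sqrt_le_sqrt hyx) (mul_le_mul (hxL y (by linarith) hyx)
        (hxL _ (by positivity) hyh) (by positivity) (by positivity)) (by positivity) (by positivity)
    refine (mul_le_mul_of_nonneg_left h1 (by positivity)).trans (le_of_eq ?_)
    rw [hP, hC, hδ]
    field_simp
    ring
  have hP0 : 0 ≤ P := hP ▸ by positivity
  have hup : partialSum f x - σ * x ≤ σ * h + P := by
    have h1 := (momentSum_sub_bounds hf hx0.le (show x ≤ x + h by linarith)).1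
    have h2 := (abs_le.1 (hstep x (by linarith) le_rfl (by linarith))).2
    rw [add_sub_cancel_left] at h1
    refine le_of_mul_le_mul_left ?_ hh0
    nlinarith [mul_nonneg hσ (mul_nonneg hh0.le hh0.le)]
  have hlow : σ * x - partialSum f x ≤ σ * h + P := by
    have h1 := (momentSum_sub_bounds hf (show 0 ≤ x - h by linarith) (show x - h ≤ x by linarith)).2
    have h2 := (abs_le.1 (hstep (x - h) (by linarith) (by linarith) (by linarith))).1
    rw [sub_add_cancel] at h2
    rw [sub_sub_cancel] at h1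
    refine le_of_mul_le_mul_left ?_ hh0
    nlinarith [mul_nonneg hσ (mul_nonneg hh0.le hh0.le)]
  refine (abs_le.2 ⟨by linarith, by linarith⟩ : |partialSum f x - σ * x| ≤ σ * h + P).trans ?_
  have h4 : σ * h ≤ (B + σ) * (√x * L ^ 4) := by
    refine mul_le_mul (by linarith) ?_ hh0.le (by linarith)
    rw [hh]
    exact le_mul_of_one_le_right (Real.sqrt_nonneg x) (one_le_pow₀ (by linarith))
  calc σ * h + P ≤ (B + σ) * (√x * L ^ 4) + P := by linarith
    _ = _ := by rw [hP]; ring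

end

/-- **Partial summation from a bound `B √t`.** -/
theorem parts_sub_le {T : ℝ → ℝ} {σ B x : ℝ} (hσ : 0 ≤ σ) (hx : 2 ≤ x) (hB : 0 ≤ B)
    (hi : IntervalIntegrable (fun t => T t / (t * Real.log t ^ 2)) volume 2 x)
    (hT : ∀ t : ℝ, 2 ≤ t → t ≤ x → |T t - σ * t| ≤ B * √t) :
    |T x / Real.log x + (∫ t in (2 : ℝ)..x, T t / (t * Real.log t ^ 2)) -
        σ * ∫ t in (2 : ℝ)..x, 1 / Real.log t| ≤ 7 * (B * √x) + 3 * σ := by
  have hx0 : 0 < x := by linarith
  have hlx : 0.69 ≤ Real.log x :=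
    le_trans (by linarith [Real.log_two_gt_d9]) (Real.log_le_log two_pos hx)
  have hl2 : 0.69 < Real.log 2 := lt_trans (by norm_num) Real.log_two_gt_d9
  have hne : ∀ t ∈ Set.uIcc 2 x, 2 ≤ t ∧ t ≠ 0 ∧ Real.log t ≠ 0 := fun t ht => by
    rw [Set.uIcc_of_le hx] at ht
    exact ⟨ht.1, by linarith [ht.1], (Real.log_pos (by linarith [ht.1])).ne'⟩
  have hcont : ContinuousOn (fun t => Real.log t) (Set.uIcc 2 x) :=
    fun t ht => (Real.continuousAt_log (hne t ht).2.1).continuousWithinAt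
  have i1 : IntervalIntegrable (fun t => 1 / Real.log t) volume 2 x :=
    (continuousOn_const.div hcont fun t ht => (hne t ht).2.2).intervalIntegrable
  have i2 : IntervalIntegrable (fun t => t / (t * Real.log t ^ 2)) volume 2 x :=
    ((continuousOn_id.div (continuousOn_id.mul (hcont.pow 2)) fun t ht =>
      mul_ne_zero (hne t ht).2.1 (pow_ne_zero 2 (hne t ht).2.2))).intervalIntegrable
  have hparts : ∫ t in (2 : ℝ)..x, 1 / Real.log t =
      x / Real.log x - 2 / Real.log 2 + ∫ t in (2 : ℝ)..x, t / (t * Real.log t ^ 2) := by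
    have hd : ∀ t ∈ Set.uIcc 2 x, HasDerivAt (fun u => u / Real.log u)
        (1 / Real.log t - t / (t * Real.log t ^ 2)) t := fun t ht => by
      obtain ⟨-, ht0, hl⟩ := hne t ht
      refine ((hasDerivAt_id' t).div (Real.hasDerivAt_log ht0) hl).congr_deriv ?_
      field_simp
    have := intervalIntegral.integral_eq_sub_of_hasDerivAt hd (i1.sub i2)
    rw [intervalIntegral.integral_sub i1 i2] at this
    linarith
  have hint : |(∫ t in (2 : ℝ)..x, T t / (t * Real.log t ^ 2)) -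
      σ * ∫ t in (2 : ℝ)..x, t / (t * Real.log t ^ 2)| ≤ 5 * (B * √x) := by
    rw [← intervalIntegral.integral_const_mul, ← intervalIntegral.integral_sub hi (i2.const_mul σ),
      ← Real.norm_eq_abs]
    refine (intervalIntegral.norm_integral_le_of_norm_le hx
      (Eventually.of_forall fun t ht => ?_)
      ((intervalIntegral.intervalIntegrable_rpow' (r := (-(1 / 2) : ℝ)) (by norm_num)).const_mul
        (5 / 2 * B))).trans ?_
    · have ht0 : 0 < t := by linarith [ht.1]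
      have hlt : Real.log 2 ≤ Real.log t := Real.log_le_log two_pos ht.1.le
      rw [mul_div, ← sub_div, Real.norm_eq_abs, abs_div,
        abs_of_pos (mul_pos ht0 (by nlinarith) : 0 < t * Real.log t ^ 2),
        div_le_iff₀ (mul_pos ht0 (by nlinarith))]
      refine (hT t ht.1.le ht.2).trans ?_
      have e : t ^ (-(1 / 2) : ℝ) * t = √t := by
        rw [← Real.rpow_add_one ht0.ne', Real.sqrt_eq_rpow]
        norm_num
      rw [show 5 / 2 * B * t ^ (-(1 / 2) : ℝ) * (t * Real.log t ^ 2) =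
        B * (t ^ (-(1 / 2) : ℝ) * t) * (5 / 2 * Real.log t ^ 2) by ring, e]
      refine le_mul_of_one_le_right (by positivity) ?_
      nlinarith
    · rw [intervalIntegral.integral_const_mul, integral_rpow (Or.inl (by norm_num))]
      norm_num
      rw [← Real.sqrt_eq_rpow, ← Real.sqrt_eq_rpow]
      nlinarith [mul_nonneg hB (Real.sqrt_nonneg 2)]
  have hmain : |(T x - σ * x) / Real.log x| ≤ 2 * (B * √x) := by
    rw [abs_div, abs_of_pos (by linarith : 0 < Real.log x), div_le_iff₀ (by linarith)]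
    refine (hT x hx le_rfl).trans ?_
    nlinarith [mul_nonneg hB (Real.sqrt_nonneg x)]
  have h3 : σ * (2 / Real.log 2) ≤ 3 * σ := by
    rw [mul_comm 3 σ]
    refine mul_le_mul_of_nonneg_left ?_ hσ
    rw [div_le_iff₀ (by linarith)]
    linarith
  have h30 : 0 ≤ σ * (2 / Real.log 2) := by positivity
  rw [hparts, mul_add, mul_sub]
  rw [sub_div, ← mul_div] at hmain
  rw [abs_le] at hint hmain ⊢
  constructor <;> linarith

end FA.ArtinHooley

end
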