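import Fermat.Agent.ArtinHooley.PrimeIdeal

/-!
# `π_K` on the Riemann hypothesis

`π_K x = ∫_2^x dt / log t + O (√x log ^ 4 x (1 + log |d| + n))` with an absolute constant.
-/

set_option autoImplicit false
set_option linter.style.haveILetI false

noncomputable section

universe u

open NumberField Module MeasureTheory Filter
open FA.DedekindPIT (thetaK piK piK_eq intervalIntegrable_thetaK psiK psiK_sub_thetaK_le
  thetaK_le_psiK)
open scoped Real Classical

namespace FA.ArtinHooley

/-- **`θ_K` on the hypothesis.** -/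
theorem exists_thetaK_le : ∃ A : ℝ, 0 ≤ A ∧ ∀ (K : Type u) [Field K] [NumberField K], FieldRH K →
    ∀ x : ℝ, 1 ≤ x → |thetaK K x - x| ≤ A * fieldSize K * (√x * (Real.log x + 4) ^ 4) := by
  obtain ⟨A, hA, h⟩ := exists_psiK_le.{u}
  refine ⟨A + 1, by linarith, fun K _ _ hRH x hx => ?_⟩
  obtain ⟨hF1, hFn⟩ := one_le_fieldSize (K := K)
  have h1 := psiK_sub_thetaK_le K hx
  have h2 := thetaK_le_psiK K x
  have h3 := abs_le.1 (h K hRH x hx)
  have hl : 0 ≤ Real.log x := Real.log_nonneg hx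
  have h4 : (finrank ℚ K : ℝ) * (2 * √x * Real.log x) ≤
      fieldSize K * (√x * (Real.log x + 4) ^ 4) := by
    refine mul_le_mul hFn ?_ (by positivity) (by linarith)
    rw [mul_comm 2 √x, mul_assoc]
    refine mul_le_mul_of_nonneg_left ?_ (Real.sqrt_nonneg x)
    refine le_trans ?_ (pow_le_pow_right₀ (by linarith) (show 2 ≤ 4 by norm_num))
    nlinarith
  rw [abs_le]
  constructor <;> nlinarith

/-- **`π_K` on the hypothesis.** -/
theorem exists_piK_le : ∃ A : ℝ, 0 ≤ A ∧ ∀ (K : Type u) [Field K] [NumberField K], FieldRH K →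
    ∀ x : ℝ, 2 ≤ x → |piK K x - ∫ t in (2 : ℝ)..x, 1 / Real.log t| ≤
      A * fieldSize K * (√x * Real.log x ^ 4) := by
  obtain ⟨A, hA, h⟩ := exists_thetaK_le.{u}
  refine ⟨(7 * A + 3) * 2500, by positivity, fun K _ _ hRH x hx => ?_⟩
  obtain ⟨hF1, -⟩ := one_le_fieldSize (K := K)
  obtain ⟨S, hS⟩ : ∃ S, S = fieldSize K * (Real.log x + 4) ^ 4 := ⟨_, rfl⟩
  have hx0 : 0 < x := by linarith
  have hlx : 0.69 ≤ Real.log x :=
    le_trans (by linarith [Real.log_two_gt_d9]) (Real.log_le_log two_pos hx)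
  have hS1 : 1 ≤ S := hS ▸ one_le_mul_of_one_le_of_one_le hF1 (one_le_pow₀ (by linarith))
  have hsq : 1 ≤ √x := Real.one_le_sqrt.2 (by linarith)
  have hθ : ∀ t : ℝ, 2 ≤ t → t ≤ x → |thetaK K t - 1 * t| ≤ A * S * √t := fun t ht htx => by
    rw [one_mul]
    refine (h K hRH t (by linarith)).trans ?_
    rw [hS, show A * (fieldSize K * (Real.log x + 4) ^ 4) * √t =
      A * fieldSize K * (√t * (Real.log x + 4) ^ 4) by ring]
    refine mul_le_mul_of_nonneg_left (mul_le_mul_of_nonneg_left (pow_le_pow_left₀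
      (by linarith [Real.log_nonneg (show 1 ≤ t by linarith)])
      (add_le_add (Real.log_le_log (by linarith) htx) le_rfl) 4)
      (Real.sqrt_nonneg t)) (mul_nonneg hA (by linarith))
  have hfin : |piK K x - ∫ t in (2 : ℝ)..x, 1 / Real.log t| ≤ (7 * A + 3) * (S * √x) := by
    have h1 := parts_sub_le zero_le_one hx (mul_nonneg hA (by linarith))
      (intervalIntegrable_thetaK K hx) hθ
    rw [← piK_eq K hx, one_mul] at h1
    have : 1 ≤ S * √x := one_le_mul_of_one_le_of_one_le hS1 hsq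
    linarith
  refine hfin.trans ?_
  have h5 : (Real.log x + 4) ^ 4 ≤ 2500 * Real.log x ^ 4 := by
    refine (pow_le_pow_left₀ (by linarith) (show Real.log x + 4 ≤ 7 * Real.log x by linarith)
      4).trans ?_
    rw [mul_pow]
    exact mul_le_mul_of_nonneg_right (by norm_num) (by positivity)
  rw [hS, show (7 * A + 3) * 2500 * fieldSize K * (√x * Real.log x ^ 4) =
    (7 * A + 3) * (fieldSize K * (2500 * Real.log x ^ 4) * √x) by ring]
  exact mul_le_mul_of_nonneg_left (mul_le_mul_of_nonneg_right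
    (mul_le_mul_of_nonneg_left h5 (by linarith)) (Real.sqrt_nonneg x)) (by positivity)

end FA.ArtinHooley

end
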