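import Fermat.Agent.ArtinHooley.Hypothesis
import Fermat.Agent.ArtinHooley.Perron
import Fermat.Agent.DedekindPrimeIdeals.Count

/-!
# The prime ideal theorem on the Riemann hypothesis, uniform in the field

`ψ_K x = x + O (√x (log x + 4) ^ 4 (1 + log |d| + n))` with an absolute constant: Perron's formula
for the moment of `Λ_K` on `re s = 1/2 + 2/L`, with `E' / E` bounded there.
-/

set_option autoImplicit false
set_option linter.style.haveILetI false

noncomputable section

universe u

open NumberField Module Complex Filter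
open FA.DedekindZF
open FA.DedekindPIT (mangoldtK mangoldtK_nonneg LSeries_mangoldtK psiK partialSum psiK_le)
open scoped Real Classical

namespace FA.ArtinHooley

/-- `1 + log |d| + n`. -/
def fieldSize (K : Type u) [Field K] [NumberField K] : ℝ :=
  1 + Real.log (((discr K).natAbs : ℕ) : ℝ) + finrank ℚ K

variable {K : Type u} [Field K] [NumberField K] {E : ℂ → ℂ} (hE : Differentiable ℂ E)
  (hEL : ∀ s : ℂ, 1 < s.re → E s = (s - 1) * dedekindZeta K s) (hRH : FieldRH K)

theorem one_le_fieldSize : 1 ≤ fieldSize K ∧ (finrank ℚ K : ℝ) ≤ fieldSize K := by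
  have hd : 0 ≤ Real.log (((discr K).natAbs : ℕ) : ℝ) :=
    Real.log_nonneg (Nat.one_le_cast.2 (Int.natAbs_pos.2 (discr_ne_zero K)))
  have hn : (0 : ℝ) ≤ finrank ℚ K := Nat.cast_nonneg _
  rw [fieldSize]
  constructor <;> linarith

theorem height_le_rpow {κ : ℝ} (hκ : 0 < κ) (hκ1 : κ ≤ 1) (t : ℝ) :
    height K t ≤ fieldSize K * (3 / κ) * (1 + |t|) ^ κ := by
  have h1 : Real.log (|t| + 3) ≤ 3 / κ * (1 + |t|) ^ κ := by
    refine (Real.log_le_rpow_div (by positivity) hκ).trans ?_
    rw [div_mul_eq_mul_div]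
    refine div_le_div_of_nonneg_right ?_ hκ.le
    refine (Real.rpow_le_rpow (by positivity) (show |t| + 3 ≤ 3 * (1 + |t|) by
      linarith [abs_nonneg t]) hκ.le).trans ?_
    rw [Real.mul_rpow (by norm_num) (by positivity)]
    exact mul_le_mul_of_nonneg_right (Real.rpow_le_self_of_one_le (by norm_num) hκ1) (by positivity)
  have hd : 0 ≤ Real.log (((discr K).natAbs : ℕ) : ℝ) :=
    Real.log_nonneg (Nat.one_le_cast.2 (Int.natAbs_pos.2 (discr_ne_zero K)))
  have h2 : 1 ≤ 3 / κ * (1 + |t|) ^ κ := by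
    refine one_le_mul_of_one_le_of_one_le ?_ (Real.one_le_rpow (by linarith [abs_nonneg t]) hκ.le)
    rw [le_div_iff₀ hκ]
    linarith
  have h3 := mul_le_mul_of_nonneg_left h1 (Nat.cast_nonneg (finrank ℚ K) : (0 : ℝ) ≤ _)
  have h4 := le_mul_of_one_le_right (show 0 ≤ 1 + Real.log (((discr K).natAbs : ℕ) : ℝ) by linarith)
    h2
  rw [height, fieldSize]
  linarith

include hE hEL hRH in
theorem norm_negLogDeriv_le {δ : ℝ} (hδ : 0 < δ) (hδ4 : δ ≤ 1 / 4) (u v : ℝ)
    (hu : 1 / 2 + 2 * δ ≤ u) (hu2 : u ≤ 2) :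
    ‖-(deriv E ((u : ℂ) + v * I) / E ((u : ℂ) + v * I))‖ ≤
      3 * derivC * fieldSize K / δ ^ 3 * (1 + |v|) ^ δ := by
  have hA := derivC_nonneg
  have h1 := norm_logDeriv_le hE hEL hRH hδ hδ4 (s := (u : ℂ) + v * I) (by simpa using hu)
    (by simpa using hu2)
  rw [show ((u : ℂ) + v * I).im = v by simp] at h1
  rw [norm_neg]
  refine h1.trans ((div_le_div_of_nonneg_right
    (mul_le_mul_of_nonneg_left (height_le_rpow (K := K) hδ (by linarith) v) hA)
      (by positivity)).trans (le_of_eq ?_))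
  field_simp

/-- **`ψ_K` on the hypothesis.** -/
theorem exists_psiK_le : ∃ A : ℝ, 0 ≤ A ∧ ∀ (K : Type u) [Field K] [NumberField K], FieldRH K →
    ∀ x : ℝ, 1 ≤ x → |psiK K x - x| ≤ A * fieldSize K * (√x * (Real.log x + 4) ^ 4) := by
  have hA := derivC_nonneg
  refine ⟨(128 * Real.exp 4 + 1) * (3 * derivC + 1) + 80, by positivity, fun K _ _ hRH x hx => ?_⟩
  obtain ⟨E, hE, hEL, -⟩ := FA.ZetaDivisibility.exists_zeta_cleared K
  have hx0 : 0 < x := by linarith
  obtain ⟨hF1, hFn⟩ := one_le_fieldSize (K := K)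
  obtain ⟨L, hL⟩ : ∃ L, L = Real.log x + 4 := ⟨_, rfl⟩
  have hl0 : 0 ≤ Real.log x := Real.log_nonneg hx
  rw [← hL]
  have hsq : 1 ≤ √x := Real.one_le_sqrt.2 hx
  have hL4 : 256 ≤ L ^ 4 :=
    le_trans (by norm_num) (pow_le_pow_left₀ (by norm_num) (show 4 ≤ L by linarith) 4)
  have hbig0 : 0 ≤ fieldSize K * (√x * L ^ 4) := by positivity
  rw [mul_assoc]
  rcases lt_or_ge x 9 with hsmall | hlarge
  · have h2 := psiK_le K hx0.le
    have h3 : 0 ≤ psiK K x := Finset.sum_nonneg fun n _ => mangoldtK_nonneg K n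
    have h4 : Real.log 4 + 4 ≤ 8 := by
      linarith [Real.log_le_sub_one_of_pos (show (0 : ℝ) < 4 by norm_num)]
    have h5 : (finrank ℚ K : ℝ) * ((Real.log 4 + 4) * x) ≤ fieldSize K * 72 :=
      mul_le_mul hFn (by nlinarith) (by positivity) (by linarith)
    have h6 : fieldSize K ≤ fieldSize K * (√x * L ^ 4) :=
      le_mul_of_one_le_right (by linarith) (by nlinarith)
    have h7 : 80 * (fieldSize K * (√x * L ^ 4)) ≤
        ((128 * Real.exp 4 + 1) * (3 * derivC + 1) + 80) * (fieldSize K * (√x * L ^ 4)) :=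
      mul_le_mul_of_nonneg_right (le_add_of_nonneg_left (by positivity)) hbig0
    rw [abs_le]
    constructor <;> linarith
  · have h := partialSum_sub_le_of_continuation (f := mangoldtK K) (σ := 1)
      (D := fun s => -(deriv E s / E s)) (B := 3 * derivC * fieldSize K)
      (fun s hs => ⟨(LSeries_mangoldtK hE hEL hs).1, by
        rw [(LSeries_mangoldtK hE hEL hs).2]
        push_cast
        ring⟩)
      (fun s hs => (((Complex.analyticAt_iff_eventually_differentiableAt.2
        (Eventually.of_forall fun z => hE z)).deriv).differentiableAt.div (hE s)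
          (ne_zero_of_half_lt hE hEL hRH hs)).neg)
      (fun δ hδ hδ4 u v hu hu2 => norm_negLogDeriv_le hE hEL hRH hδ hδ4 u v hu hu2)
      (fun n _ => mangoldtK_nonneg K n) zero_le_one (by positivity) hlarge
    rw [← hL, one_mul] at h
    change |psiK K x - x| ≤ _ at h
    refine h.trans (le_trans (le_of_eq_of_le (mul_assoc _ _ _) (mul_le_mul_of_nonneg_left
      (mul_le_mul_of_nonneg_right (show 3 * derivC * fieldSize K + 1 ≤
        (3 * derivC + 1) * fieldSize K by nlinarith) (by positivity)) (by positivity))) ?_)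
    have : 0 ≤ 80 * (fieldSize K * (√x * L ^ 4)) := by positivity
    linarith

end FA.ArtinHooley

end
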