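import Fermat.Agent.ArtinHooley.Constant
import Fermat.Agent.PrimesMinusOne.BrunTitchmarsh
import Fermat.Agent.PrimesMinusOne.TotientSum

/-!
# The three ranges of Hooley

A prime missing the conditions at the `q ≤ z` with `a` no primitive root meets one at some `q > z`:
`q ≤ x₂` is counted on the hypothesis, `x₂ < q ≤ x₃` by Brun and Titchmarsh, and for `q > x₃` the
prime divides some `a ^ m - 1` with `m < N / x₃`.
-/

set_option autoImplicit false
set_option linter.style.haveILetI false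

noncomputable section

open Finset
open scoped Classical ArithmeticFunction.vonMangoldt

namespace FA.ArtinHooley

/-- The primes `p ≤ N` with the primitive root `a`. -/
def primRootSet (a : ℤ) (N : ℕ) : Finset ℕ :=
  (Icc 1 N).filter fun p => p.Prime ∧ orderOf (a : ZMod p) = p - 1

theorem primRootSet_subset (a : ℤ) {Q : Finset ℕ} (hQ : ∀ q ∈ Q, q.Prime) (N : ℕ) :
    primRootSet a N ⊆ sieveSet a Q N := fun p hp => by
  rw [primRootSet, mem_filter] at hp
  obtain ⟨hp1, hpp, hord⟩ := hp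
  haveI : Fact p.Prime := ⟨hpp⟩
  have h2 := hpp.two_le
  refine mem_filter.2 ⟨hp1, hpp, fun hd => ?_, fun q hq h => ?_⟩
  · rw [(ZMod.intCast_zmod_eq_zero_iff_dvd a p).2 hd, orderOf_zero] at hord
    omega
  · obtain ⟨hk, hu⟩ := (rootCond_iff q).1 h
    have h3 := Nat.le_of_dvd (Nat.div_pos (Nat.le_of_dvd (by omega) hk) (hQ q hq).pos)
      (orderOf_dvd_of_pow_eq_one hu)
    have h4 := Nat.div_lt_self (show 0 < p - 1 by omega) (hQ q hq).one_lt
    omega

/-- The primes dividing `a ^ m - 1` for some `m ≤ y`. -/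
def smallOrderSet (a : ℤ) (y : ℕ) : Finset ℕ :=
  (Icc 1 y).biUnion fun m => (a ^ m - 1).natAbs.primeFactors

theorem sieveSet_subset (a : ℤ) {z x₂ x₃ y : ℕ} (N : ℕ)
    (hy : ∀ p q : ℕ, p ≤ N → x₃ < q → (p - 1) / q ≤ y) (ha : 2 ≤ a.natAbs) :
    sieveSet a ((Icc 1 z).filter Nat.Prime) N ⊆ primRootSet a N ∪
      ((((Ioc z x₂).filter Nat.Prime).biUnion fun q =>
          (Icc 1 N).filter fun p => p.Prime ∧ RootCond a q p) ∪
        (((Ioc x₂ x₃).filter Nat.Prime).biUnion fun q =>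
          (Icc 1 N).filter fun p => p.Prime ∧ p ≡ 1 [MOD q]) ∪
        smallOrderSet a y) := fun p hp => by
  rw [sieveSet, mem_filter] at hp
  obtain ⟨hp1, hpp, hpa, hQ⟩ := hp
  haveI : Fact p.Prime := ⟨hpp⟩
  have h2 := hpp.two_le
  have hu : (a : ZMod p) ≠ 0 := fun e => hpa ((ZMod.intCast_zmod_eq_zero_iff_dvd a p).1 e)
  by_cases hord : orderOf (a : ZMod p) = p - 1
  · exact mem_union_left _ (mem_filter.2 ⟨hp1, hpp, hord⟩)
  refine mem_union_right _ ?_
  obtain ⟨d, hd⟩ : ∃ d, d = orderOf (a : ZMod p) := ⟨_, rfl⟩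
  obtain ⟨r, hr⟩ : d ∣ p - 1 := hd ▸ orderOf_dvd_of_pow_eq_one (ZMod.pow_card_sub_one_eq_one hu)
  have hr1 : r ≠ 1 := fun e => hord (by rw [← hd, hr, e, mul_one])
  obtain ⟨q, hq, hqr⟩ := Nat.exists_prime_and_dvd hr1
  obtain ⟨e, he⟩ := hqr
  have hpq : p - 1 = q * (d * e) := by rw [hr, he]; ring
  have hdiv : (p - 1) / q = d * e := by rw [hpq, Nat.mul_div_cancel_left _ hq.pos]
  have hcond : RootCond a q p := (rootCond_iff q).2 ⟨⟨d * e, hpq⟩, by
    rw [hdiv, pow_mul, hd, pow_orderOf_eq_one, one_pow]⟩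
  have hzq : z < q := by
    by_contra hle
    exact hQ q (mem_filter.2 ⟨mem_Icc.2 ⟨hq.one_le, by omega⟩, hq⟩) hcond
  rcases le_or_gt q x₂ with h | h
  · exact mem_union_left _ (mem_union_left _ (mem_biUnion.2
      ⟨q, mem_filter.2 ⟨mem_Ioc.2 ⟨hzq, h⟩, hq⟩, mem_filter.2 ⟨hp1, hpp, hcond⟩⟩))
  rcases le_or_gt q x₃ with h' | h'
  · refine mem_union_left _ (mem_union_right _ (mem_biUnion.2
      ⟨q, mem_filter.2 ⟨mem_Ioc.2 ⟨h, h'⟩, hq⟩, mem_filter.2 ⟨hp1, hpp, ?_⟩⟩))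
    exact ((Nat.modEq_iff_dvd' (by omega)).2 hcond.1).symm
  refine mem_union_right _ (mem_biUnion.2 ⟨(p - 1) / q, mem_Icc.2 ⟨?_,
    hy p q (mem_Icc.1 hp1).2 h'⟩, Nat.mem_primeFactors.2 ⟨hpp, Int.natCast_dvd.1 hcond.2, ?_⟩⟩)
  · rw [hdiv]
    rcases Nat.eq_zero_or_pos (d * e) with h0 | h0
    · rw [h0, mul_zero] at hpq
      omega
    · exact h0
  · intro h0
    rw [Int.natAbs_eq_zero, sub_eq_zero] at h0
    have h1 := congrArg Int.natAbs h0
    rw [Int.natAbs_pow, Int.natAbs_one, Nat.pow_eq_one] at h1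
    rcases h1 with h1 | h1
    · omega
    · rw [hdiv] at h1
      rw [h1, mul_zero] at hpq
      omega

theorem card_smallOrderSet_le {a : ℤ} (ha : 2 ≤ a.natAbs) (y : ℕ) :
    ((smallOrderSet a y).card : ℝ) ≤ 2 * (y : ℝ) ^ 2 * (Real.log |(a : ℝ)| + 1) := by
  have hA : |(a : ℝ)| = ((a.natAbs : ℕ) : ℝ) := by rw [Nat.cast_natAbs, Int.cast_abs]
  have h1 : ∀ m ∈ Icc 1 y, ((a ^ m - 1).natAbs.primeFactors.card : ℝ) ≤
      2 * y * (Real.log |(a : ℝ)| + 1) := fun m hm => by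
    rw [mem_Icc] at hm
    obtain ⟨b, hb⟩ : ∃ b, b = (a ^ m - 1).natAbs := ⟨_, rfl⟩
    rw [← hb]
    have hb0 : b ≠ 0 := fun e => by
      rw [e, eq_comm, Int.natAbs_eq_zero, sub_eq_zero] at hb
      have h1 := congrArg Int.natAbs hb
      rw [Int.natAbs_pow, Int.natAbs_one, Nat.pow_eq_one] at h1
      omega
    have hbA : b ≤ (2 * a.natAbs) ^ m := by
      have h1 := Int.natAbs_sub_le (a ^ m) 1
      rw [Int.natAbs_pow, Int.natAbs_one, ← hb] at h1
      refine h1.trans ?_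
      have h2 : 1 ≤ a.natAbs ^ m := Nat.one_le_pow _ _ (by omega)
      have h3 : a.natAbs ^ m * 2 ≤ a.natAbs ^ m * 2 ^ m :=
        Nat.mul_le_mul_left _ (Nat.le_self_pow (by omega) 2)
      rw [mul_pow, mul_comm]
      omega
    have hpow : 2 ^ b.primeFactors.card ≤ (2 * a.natAbs) ^ m :=
      ((Finset.pow_card_le_prod _ _ _ fun p hp => (Nat.prime_of_mem_primeFactors hp).two_le).trans
        (Nat.le_of_dvd (Nat.pos_of_ne_zero hb0) (Nat.prod_primeFactors_dvd b))).trans hbA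
    have hlog := Real.log_le_log (by positivity)
      (show (2 : ℝ) ^ b.primeFactors.card ≤ ((2 : ℝ) * (a.natAbs : ℕ)) ^ m by exact_mod_cast hpow)
    rw [Real.log_pow, Real.log_pow, Real.log_mul two_ne_zero (by
      exact_mod_cast (by omega : a.natAbs ≠ 0)), ← hA] at hlog
    have hm' : (m : ℝ) ≤ y := Nat.cast_le.2 hm.2
    have ha0 : 0 ≤ Real.log |(a : ℝ)| := hA ▸ Real.log_natCast_nonneg _
    nlinarith [Real.log_two_gt_d9, Real.log_two_lt_d9]
  rw [smallOrderSet]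
  refine (Nat.cast_le.2 card_biUnion_le).trans ?_
  push_cast
  refine (sum_le_card_nsmul _ _ _ h1).trans (le_of_eq ?_)
  rw [Nat.card_Icc, Nat.add_sub_cancel, nsmul_eq_mul]
  ring

/-- `∑ 1 / (q (q - 1))` over `(z, x]`. -/
theorem sum_inv_mul_pred_le {z : ℕ} (hz : 1 ≤ z) (x : ℕ) :
    ∑ q ∈ (Ioc z x).filter Nat.Prime, 1 / ((q : ℝ) * (q - 1)) ≤ 1 / z := by
  refine (sum_le_sum_of_subset_of_nonneg (filter_subset _ _) fun q hq _ => ?_).trans ?_
  · rw [mem_Ioc] at hq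
    have : (1 : ℝ) ≤ q := Nat.one_le_cast.2 (by omega)
    exact one_div_nonneg.2 (mul_nonneg (by linarith) (by linarith))
  have hz0 : (0 : ℝ) < z := Nat.cast_pos.2 hz
  rcases le_or_gt z x with h | h
  swap
  · rw [Ioc_eq_empty_of_le h.le, sum_empty]
    positivity
  suffices ∑ q ∈ Ioc z x, 1 / ((q : ℝ) * (q - 1)) = 1 / z - 1 / x by
    rw [this]
    exact sub_le_self _ (by positivity)
  induction x, h using Nat.le_induction with
  | base => simp
  | succ j hj ih =>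
    have hj0 : (0 : ℝ) < j := Nat.cast_pos.2 (by omega)
    rw [sum_Ioc_succ_top hj, ih]
    push_cast
    rw [add_sub_cancel_right]
    field_simp
    ring

/-- `∑ 1 / q` over the primes of `(u, v]`. -/
theorem sum_inv_prime_le {u v : ℕ} (hu : 2 ≤ u) (huv : u ≤ v) :
    ∑ q ∈ (Ioc u v).filter Nat.Prime, 1 / (q : ℝ) ≤
      (Real.log v - Real.log u + 12) / Real.log u := by
  have hl : 0 < Real.log u := Real.log_pos (by exact_mod_cast hu)
  rw [le_div_iff₀ hl, sum_mul]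
  have h1 := abs_le.1 (FA.PrimesMinusOne.abs_sum_vonMangoldt_div_sub_le (n := v) (by omega))
  have h2 := abs_le.1 (FA.PrimesMinusOne.abs_sum_vonMangoldt_div_sub_le (n := u) (by omega))
  have hsplit : ∑ d ∈ Ioc 0 u, Λ d / (d : ℝ) + ∑ d ∈ Ioc u v, Λ d / (d : ℝ) =
      ∑ d ∈ Ioc 0 v, Λ d / (d : ℝ) := by
    rw [← sum_union (Ioc_disjoint_Ioc_of_le le_rfl), Ioc_union_Ioc_eq_Ioc (Nat.zero_le u) huv]
  refine le_trans ?_ (show ∑ d ∈ Ioc u v, Λ d / (d : ℝ) ≤ Real.log v - Real.log u + 12 by linarith)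
  refine (sum_le_sum fun q hq => ?_).trans (sum_le_sum_of_subset_of_nonneg (filter_subset _ _)
    fun d _ _ => div_nonneg ArithmeticFunction.vonMangoldt_nonneg (Nat.cast_nonneg d))
  rw [mem_filter, mem_Ioc] at hq
  rw [ArithmeticFunction.vonMangoldt_apply_prime hq.2, div_mul_eq_mul_div, one_mul]
  exact div_le_div_of_nonneg_right (Real.log_le_log (by exact_mod_cast (by omega : 0 < u))
    (Nat.cast_le.2 hq.1.1.le)) (Nat.cast_nonneg q)

/-- The middle range, by Brun and Titchmarsh. -/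
theorem card_middle_le {N u v : ℕ} (hu : 2 ≤ u) (huv : u ≤ v) (hN : 2 ≤ N)
    (hv : Real.log v ≤ 2 / 3 * Real.log N) :
    ((((Ioc u v).filter Nat.Prime).biUnion fun q =>
        (Icc 1 N).filter fun p => p.Prime ∧ p ≡ 1 [MOD q]).card : ℝ) ≤
      144 * N / Real.log N * ((Real.log v - Real.log u + 12) / Real.log u) := by
  have hlN : 0 < Real.log N := Real.log_pos (by exact_mod_cast hN)
  refine (Nat.cast_le.2 card_biUnion_le).trans ?_
  push_cast
  refine (sum_le_sum fun q hq => ?_).trans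
    ((mul_sum _ _ _).symm.le.trans (mul_le_mul_of_nonneg_left (sum_inv_prime_le hu huv)
      (show (0 : ℝ) ≤ 144 * N / Real.log N by positivity)))
  rw [mem_filter, mem_Ioc] at hq
  obtain ⟨⟨huq, hqv⟩, hqp⟩ := hq
  have hq2 : (2 : ℝ) ≤ q := by exact_mod_cast hqp.two_le
  have hlq : Real.log q ≤ 2 / 3 * Real.log N :=
    (Real.log_le_log (by linarith) (Nat.cast_le.2 hqv)).trans hv
  have hqN : q < N := by
    by_contra h
    have := Real.log_le_log (show (0 : ℝ) < N by positivity) (Nat.cast_le.2 (not_lt.1 h))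
    linarith
  refine (FA.PrimesMinusOne.brunTitchmarsh hqp.pos hqN).trans ?_
  rw [Nat.totient_prime hqp, Nat.cast_sub hqp.one_le, Nat.cast_one,
    Real.log_div (by positivity) (by linarith)]
  have h3 : Real.log N / 3 ≤ Real.log N - Real.log q := by linarith
  refine (div_le_div_of_nonneg_left (by positivity) (by positivity)
    (mul_le_mul (show (q : ℝ) / 2 ≤ q - 1 by linarith) h3 (by positivity) (by linarith))).trans
    (le_of_eq ?_)
  field_simp
  ring

end FA.ArtinHooley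

end
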