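import Fermat.Agent.ArtinHooley.Split

/-!
# The sieve for primitive roots

For distinct primes `q ∈ T`, `p ≡ 1 (mod ∏ q)` with `a` a power residue of that order is the same
as the conditions at every `q`; so the primes missing all the conditions of a finite set of primes
are counted by inclusion and exclusion, with main term `∏ (1 - 1/(q (q - 1)))` on the hypothesis.
-/

set_option autoImplicit false
set_option linter.style.haveILetI false

noncomputable section

open Finset Module Filter MeasureTheory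
open scoped Classical Topology

namespace FA.ArtinHooley

variable {a : ℤ} {p : ℕ}

theorem rootCond_iff (k : ℕ) :
    RootCond a k p ↔ k ∣ p - 1 ∧ (a : ZMod p) ^ ((p - 1) / k) = 1 := by
  rw [RootCond, ← ZMod.intCast_zmod_eq_zero_iff_dvd, Int.cast_sub, Int.cast_pow, Int.cast_one,
    sub_eq_zero]

theorem not_dvd_of_rootCond (hp : p.Prime) {k : ℕ} (h : RootCond a k p) : ¬ (p : ℤ) ∣ a :=
  fun hd => by
  haveI : Fact p.Prime := ⟨hp⟩
  obtain ⟨hk, hu⟩ := (rootCond_iff k).1 h
  have he : (p - 1) / k ≠ 0 := Nat.div_ne_zero_iff.2 ⟨fun e => by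
    rw [e, zero_dvd_iff] at hk
    have := hp.two_le
    omega, Nat.le_of_dvd (by have := hp.two_le; omega) hk⟩
  rw [(ZMod.intCast_zmod_eq_zero_iff_dvd a p).2 hd, zero_pow he] at hu
  exact zero_ne_one hu

/-- The conditions at distinct primes combine. -/
theorem rootCond_prod (hp : p.Prime) {T : Finset ℕ} (hT : ∀ q ∈ T, q.Prime) :
    RootCond a (∏ q ∈ T, q) p ↔ ¬ (p : ℤ) ∣ a ∧ ∀ q ∈ T, RootCond a q p := by
  haveI : Fact p.Prime := ⟨hp⟩
  constructor
  · intro h
    refine ⟨not_dvd_of_rootCond hp h, fun q hq => ?_⟩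
    obtain ⟨hk, hu⟩ := (rootCond_iff _).1 h
    obtain ⟨r, hr⟩ := Finset.dvd_prod_of_mem (fun i => i) hq
    obtain ⟨e, he⟩ := hk
    refine (rootCond_iff q).2 ⟨⟨r * e, by rw [he, hr, mul_assoc]⟩, ?_⟩
    rw [he, Nat.mul_div_cancel_left _ (Finset.prod_pos fun i hi => (hT i hi).pos)] at hu
    rw [he, hr, mul_assoc, Nat.mul_div_cancel_left _ (hT q hq).pos, mul_comm r, pow_mul, hu,
      one_pow]
  · rintro ⟨ha, h⟩
    have hu : (a : ZMod p) ≠ 0 := fun e => ha ((ZMod.intCast_zmod_eq_zero_iff_dvd a p).1 e)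
    obtain ⟨d, hd⟩ : ∃ d, d = orderOf (a : ZMod p) := ⟨_, rfl⟩
    obtain ⟨r, hr⟩ : d ∣ p - 1 := hd ▸ orderOf_dvd_of_pow_eq_one (ZMod.pow_card_sub_one_eq_one hu)
    have hd0 : 0 < d := Nat.pos_of_ne_zero fun e => by
      rw [e, zero_mul] at hr
      have := hp.two_le
      omega
    obtain ⟨e, he⟩ : (∏ q ∈ T, q) ∣ r := Finset.prod_primes_dvd _ (fun q hq => (hT q hq).prime)
      fun q hq => by
      obtain ⟨⟨c, hc⟩, h2⟩ := (rootCond_iff q).1 (h q hq)
      rw [hc, Nat.mul_div_cancel_left _ (hT q hq).pos] at h2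
      obtain ⟨j, hj⟩ := hd ▸ orderOf_dvd_of_pow_eq_one h2
      refine ⟨j, Nat.eq_of_mul_eq_mul_left hd0 ?_⟩
      rw [← hr, hc, hj]
      ring
    refine (rootCond_iff _).2 ⟨⟨d * e, by rw [hr, he]; ring⟩, ?_⟩
    rw [show p - 1 = (∏ q ∈ T, q) * (d * e) by rw [hr, he]; ring,
      Nat.mul_div_cancel_left _ (Finset.prod_pos fun i hi => (hT i hi).pos), pow_mul, hd,
      pow_orderOf_eq_one, one_pow]

/-- The primes `p ≤ N`, `p ∤ a`, missing the conditions at the primes of `Q`. -/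
def sieveSet (a : ℤ) (Q : Finset ℕ) (N : ℕ) : Finset ℕ :=
  (Icc 1 N).filter fun p => p.Prime ∧ ¬ (p : ℤ) ∣ a ∧ ∀ q ∈ Q, ¬ RootCond a q p

/-- The primes `p ≤ N` with the property `P` and the condition at `k`. -/
def condCount (a : ℤ) (P : ℕ → Prop) (k N : ℕ) : ℕ :=
  ((Icc 1 N).filter fun p => p.Prime ∧ RootCond a k p ∧ P p).card

theorem condCount_true (a : ℤ) (k N : ℕ) : condCount a (fun _ => True) k N = splitCount a k N := by
  simp [condCount, splitCount]

/-- Inclusion and exclusion among the primes with a property. -/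
theorem card_sieveSet_filter (a : ℤ) (P : ℕ → Prop) {Q : Finset ℕ} (hQ : ∀ q ∈ Q, q.Prime)
    (N : ℕ) : (((sieveSet a Q N).filter P).card : ℤ) =
      ∑ T ∈ Q.powerset, (-1 : ℤ) ^ T.card * (condCount a P (∏ q ∈ T, q) N : ℤ) := by
  simp only [sieveSet, condCount, filter_filter, card_filter, Nat.cast_sum, Nat.cast_ite,
    Nat.cast_one, Nat.cast_zero, mul_sum, mul_ite, mul_one, mul_zero]
  rw [sum_comm]
  refine sum_congr rfl fun p _ => ?_
  by_cases hp : p.Prime ∧ ¬ (p : ℤ) ∣ a ∧ P p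
  swap
  · rw [if_neg fun h => hp ⟨h.1.1, h.1.2.1, h.2⟩]
    refine (sum_eq_zero fun T hT => if_neg fun h => hp ⟨h.1, ?_, h.2.2⟩).symm
    exact ((rootCond_prod h.1 fun q hq => hQ q (mem_powerset.1 hT hq)).1 h.2.1).1
  rw [← sum_filter, show Q.powerset.filter (fun T => p.Prime ∧ RootCond a (∏ q ∈ T, q) p ∧ P p) =
    (Q.filter fun q => RootCond a q p).powerset by
      ext T
      simp only [mem_filter, mem_powerset, subset_iff]
      refine ⟨fun h q hq => ⟨h.1 hq, ((rootCond_prod hp.1 fun i hi => hQ i (h.1 hi)).1 h.2.2.1).2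
        q hq⟩, fun h => ⟨fun q hq => (h hq).1, hp.1, ?_, hp.2.2⟩⟩
      exact (rootCond_prod hp.1 fun i hi => hQ i (h hi).1).2 ⟨hp.2.1, fun q hq => (h hq).2⟩,
    sum_powerset_neg_one_pow_card]
  refine if_congr ?_ rfl rfl
  simp [filter_eq_empty_iff, hp.1, hp.2.1, hp.2.2]

/-- **Inclusion and exclusion.** -/
theorem card_sieveSet (a : ℤ) {Q : Finset ℕ} (hQ : ∀ q ∈ Q, q.Prime) (N : ℕ) :
    ((sieveSet a Q N).card : ℤ) =
      ∑ T ∈ Q.powerset, (-1 : ℤ) ^ T.card * (splitCount a (∏ q ∈ T, q) N : ℤ) := by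
  simpa [condCount_true] using card_sieveSet_filter a (fun _ => True) hQ N

/-- The factor at `q`. -/
def artinFactor (q : ℕ) : ℝ := if q.Prime then 1 - 1 / ((q : ℝ) * (q - 1)) else 1

theorem totient_prod {T : Finset ℕ} (hT : ∀ q ∈ T, q.Prime) :
    (((∏ q ∈ T, q) * (∏ q ∈ T, q).totient : ℕ) : ℝ) = ∏ q ∈ T, (q : ℝ) * (q - 1) := by
  induction T using Finset.induction_on with
  | empty => simp
  | insert q S hq ih =>
    have hS : ∀ i ∈ S, i.Prime := fun i hi => hT i (mem_insert_of_mem hi)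
    have hqp := hT q (mem_insert_self q S)
    have hcop : q.Coprime (∏ i ∈ S, i) := Nat.Coprime.prod_right fun i hi =>
      (Nat.coprime_primes hqp (hS i hi)).2 fun e => hq (e ▸ hi)
    rw [prod_insert hq, prod_insert hq, ← ih hS, Nat.totient_mul hcop, Nat.totient_prime hqp]
    push_cast [Nat.cast_sub hqp.one_le]
    ring

/-- The main terms. -/
theorem sum_alternating_inv_degree {Q : Finset ℕ} (hQ : ∀ q ∈ Q, q.Prime) :
    ∑ T ∈ Q.powerset, (-1 : ℝ) ^ T.card / (((∏ q ∈ T, q) * (∏ q ∈ T, q).totient : ℕ) : ℝ) =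
      ∏ q ∈ Q, artinFactor q := by
  rw [prod_congr rfl fun q hq => show artinFactor q = -(1 / ((q : ℝ) * (q - 1))) + 1 by
    rw [artinFactor, if_pos (hQ q hq)]; ring, prod_add]
  refine sum_congr rfl fun T hT => ?_
  rw [totient_prod fun q hq => hQ q (mem_powerset.1 hT hq), prod_neg]
  rw [prod_div_distrib, prod_const_one, prod_const_one, mul_one, div_eq_mul_one_div]

theorem squarefree_prod {T : Finset ℕ} (hT : ∀ q ∈ T, q.Prime) : Squarefree (∏ q ∈ T, q) := by
  induction T using Finset.induction_on with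
  | empty => simp
  | insert q S hq ih =>
    have hS : ∀ i ∈ S, i.Prime := fun i hi => hT i (mem_insert_of_mem hi)
    have hqp := hT q (mem_insert_self q S)
    rw [prod_insert hq, Nat.squarefree_mul (Nat.Coprime.prod_right fun i hi =>
      (Nat.coprime_primes hqp (hS i hi)).2 fun e => hq (e ▸ hi))]
    exact ⟨hqp.squarefree, ih hS⟩

/-- The logarithmic integral. -/
def logInt (x : ℝ) : ℝ := ∫ t in (2 : ℝ)..x, 1 / Real.log t

theorem logInt_nonneg {x : ℝ} (hx : 2 ≤ x) : 0 ≤ logInt x :=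
  intervalIntegral.integral_nonneg hx fun t ht =>
    one_div_nonneg.2 (Real.log_nonneg (by linarith [ht.1]))

theorem tendsto_logInt : Tendsto (fun x : ℝ => logInt x * Real.log x / x) atTop (𝓝 1) := by
  obtain ⟨C, hC⟩ := Chebyshev.integral_one_div_log_sq_isBigO.bound
  rw [← tendsto_sub_nhds_zero_iff]
  have h0 : Tendsto (fun x : ℝ => 2 / Real.log 2 * (Real.log x / x) + C * (1 / Real.log x))
      atTop (𝓝 0) := by
    have h1 : Tendsto (fun x : ℝ => Real.log x / x) atTop (𝓝 0) :=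
      Real.isLittleO_log_id_atTop.tendsto_div_nhds_zero
    have h2 : Tendsto (fun x : ℝ => 1 / Real.log x) atTop (𝓝 0) := by
      simp only [one_div]
      exact Real.tendsto_log_atTop.inv_tendsto_atTop
    simpa using (h1.const_mul (2 / Real.log 2)).add (h2.const_mul C)
  refine squeeze_zero_norm' ?_ h0
  filter_upwards [hC, eventually_ge_atTop (2 : ℝ)] with x hCx hx
  have hne : ∀ t ∈ Set.uIcc 2 x, t ≠ 0 ∧ Real.log t ≠ 0 := fun t ht => by
    rw [Set.uIcc_of_le hx] at ht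
    exact ⟨by linarith [ht.1], (Real.log_pos (by linarith [ht.1])).ne'⟩
  have hcont : ContinuousOn (fun t => Real.log t) (Set.uIcc 2 x) :=
    fun t ht => (Real.continuousAt_log (hne t ht).1).continuousWithinAt
  have i1 : IntervalIntegrable (fun t => 1 / Real.log t) volume 2 x :=
    (continuousOn_const.div hcont fun t ht => (hne t ht).2).intervalIntegrable
  have i2 : IntervalIntegrable (fun t => 1 / Real.log t ^ 2) volume 2 x :=
    (continuousOn_const.div (hcont.pow 2) fun t ht =>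
      pow_ne_zero 2 (hne t ht).2).intervalIntegrable
  have hparts : logInt x = x / Real.log x - 2 / Real.log 2 +
      ∫ t in (2 : ℝ)..x, 1 / Real.log t ^ 2 := by
    have hd : ∀ t ∈ Set.uIcc 2 x, HasDerivAt (fun u => u / Real.log u)
        (1 / Real.log t - 1 / Real.log t ^ 2) t := fun t ht => by
      obtain ⟨ht0, hl⟩ := hne t ht
      refine ((hasDerivAt_id' t).div (Real.hasDerivAt_log ht0) hl).congr_deriv ?_
      field_simp
    have := intervalIntegral.integral_eq_sub_of_hasDerivAt hd (i1.sub i2)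
    rw [intervalIntegral.integral_sub i1 i2] at this
    rw [logInt]
    linarith
  have hl : 0 < Real.log x := Real.log_pos (by linarith)
  have hx0 : 0 < x := by linarith
  have hl2 : 0 < Real.log 2 := Real.log_pos one_lt_two
  rw [hparts, show (x / Real.log x - 2 / Real.log 2 + ∫ t in (2 : ℝ)..x, 1 / Real.log t ^ 2) *
    Real.log x / x - 1 = -(2 / Real.log 2 * (Real.log x / x)) +
      (∫ t in (2 : ℝ)..x, 1 / Real.log t ^ 2) * (Real.log x / x) by field_simp; ring]
  refine (norm_add_le _ _).trans (add_le_add (le_of_eq ?_) ?_)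
  · rw [norm_neg, Real.norm_of_nonneg (by positivity)]
  · rw [norm_mul, Real.norm_of_nonneg (show 0 ≤ Real.log x / x by positivity)]
    refine (mul_le_mul_of_nonneg_right hCx (by positivity)).trans (le_of_eq ?_)
    rw [Real.norm_of_nonneg (by positivity)]
    field_simp

/-- **The count of the split primes on the hypothesis.** -/
theorem exists_splitCount_le : ∃ A : ℝ, 0 ≤ A ∧ ∀ a : ℤ, GoodBase a → ∀ k : ℕ, Squarefree k →
    FieldRH (KummerField a k) → ∀ N : ℕ, 2 ≤ N →
      |(splitCount a k N : ℝ) - logInt N / ((k * k.totient : ℕ) : ℝ)| ≤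
        A * (1 + Real.log k + Real.log |(a : ℝ)|) * (√N * Real.log N ^ 4) := by
  obtain ⟨A, hA, h⟩ := exists_piK_le.{0}
  refine ⟨3 * A + 25, by linarith, fun a ha k hk hRH N hN => ?_⟩
  haveI : NeZero k := ⟨hk.ne_zero⟩
  obtain ⟨hdeg, hdisc, -⟩ := kummer_finrank_and_discr ha hk
  have hN2 : (2 : ℝ) ≤ N := by exact_mod_cast hN
  have h1 := piK_sub_splitCount_le ha hk (x := (N : ℝ)) (by linarith)
  have h2 := h (KummerField a k) hRH N hN2
  rw [Nat.floor_natCast, hdeg] at h1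
  obtain ⟨n, hn⟩ : ∃ n : ℝ, n = ((k * k.totient : ℕ) : ℝ) := ⟨_, rfl⟩
  rw [← hn] at h1 hdisc ⊢
  have hn1 : 1 ≤ n := hn ▸ Nat.one_le_cast.2
    (Nat.mul_pos (NeZero.pos k) (Nat.totient_pos.2 (NeZero.pos k)))
  have hk0 : 0 ≤ Real.log k := Real.log_natCast_nonneg k
  have ha0 : 0 ≤ Real.log |(a : ℝ)| := by
    rw [← Int.cast_abs]
    exact Real.log_nonneg (by exact_mod_cast Int.one_le_abs ha.ne_zero)
  obtain ⟨B, hB⟩ : ∃ B, B = 1 + Real.log k + Real.log |(a : ℝ)| := ⟨_, rfl⟩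
  obtain ⟨R, hR⟩ : ∃ R, R = √(N : ℝ) * Real.log N ^ 4 := ⟨_, rfl⟩
  rw [← hR] at h2
  rw [← hB, ← hR]
  have hl : 0.69 ≤ Real.log N :=
    le_trans (by linarith [Real.log_two_gt_d9]) (Real.log_le_log two_pos hN2)
  have hsq : √(N : ℝ) ≤ 5 * R := by
    rw [hR]
    have : (0.69 : ℝ) ^ 4 ≤ Real.log N ^ 4 := pow_le_pow_left₀ (by norm_num) hl 4
    nlinarith [Real.sqrt_nonneg (N : ℝ)]
  have hsq1 : 1 ≤ √(N : ℝ) := Real.one_le_sqrt.2 (by linarith)
  have hR0 : 0 ≤ R := hR ▸ by positivity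
  have hfs : fieldSize (KummerField a k) ≤ n * (3 * B) := by
    rw [fieldSize, hdeg, ← hn, hB]
    nlinarith
  have h3 : |FA.DedekindPIT.piK (KummerField a k) (N : ℝ) - logInt N| ≤ n * (3 * A * B * R) :=
    h2.trans ((mul_le_mul_of_nonneg_right (mul_le_mul_of_nonneg_left hfs hA) hR0).trans
      (le_of_eq (by ring)))
  have h4 : √(N : ℝ) + 2 * (Real.log k + Real.log |(a : ℝ)|) ≤ 25 * B * R := by
    rw [hB]
    nlinarith
  have h5 := abs_le.1 (h1.trans (mul_le_mul_of_nonneg_left h4 (by linarith)))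
  rw [abs_le] at h3
  rw [show (splitCount a k N : ℝ) - logInt N / n =
    (n * splitCount a k N - logInt N) / n by field_simp, abs_div, abs_of_pos (by linarith : 0 < n),
    div_le_iff₀ (by linarith), abs_le]
  constructor <;> linarith

end FA.ArtinHooley

end
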