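import Fermat.Agent.ArtinHooley.Kummer
import Fermat.Agent.ArtinHooley.PrimeCount
import Fermat.Agent.DedekindPrimeIdeals.Split
import Fermat.Agent.Root.SummaryFrobenius

/-!
# The primes splitting completely in `ℚ(ζ_k, a ^ (1/k))`

Away from `k a` they are the `p ≡ 1 (mod k)` with `a ^ ((p - 1) / k) ≡ 1 (mod p)`, so `π_K x` is
`k φ k` times their number, up to
`k φ k (√x + O (log (k |a|)))`.
-/

set_option autoImplicit false
set_option linter.style.haveILetI false

noncomputable section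

open Polynomial NumberField IsDedekindDomain Module Ideal
open FA.DedekindPIT (piK split_of_norm_prime)
open FA.Hecke (primesLE mem_primesLE)
open scoped Classical

namespace FA.ArtinHooley

/-- `p ≡ 1 (mod k)` and `a` is a `k`-th power residue. -/
def RootCond (a : ℤ) (k p : ℕ) : Prop := k ∣ p - 1 ∧ (p : ℤ) ∣ a ^ ((p - 1) / k) - 1

/-- The number of these primes up to `N`. -/
def splitCount (a : ℤ) (k N : ℕ) : ℕ :=
  ((Finset.Icc 1 N).filter fun p => p.Prime ∧ RootCond a k p).card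

theorem exists_norm_eq_pow {K : Type*} [Field K] [NumberField K] (v : HeightOneSpectrum (𝓞 K)) :
    ∃ p f : ℕ, p.Prime ∧ 1 ≤ f ∧ absNorm v.asIdeal = p ^ f ∧ (p : 𝓞 K) ∈ v.asIdeal := by
  haveI := v.isMaximal
  letI := Ideal.Quotient.field v.asIdeal
  haveI : Finite (𝓞 K ⧸ v.asIdeal) := Ideal.finiteQuotientOfFreeOfNeBot _ v.ne_bot
  cases nonempty_fintype (𝓞 K ⧸ v.asIdeal)
  obtain ⟨p, hc⟩ := CharP.exists (𝓞 K ⧸ v.asIdeal)
  obtain ⟨f, hp, hf⟩ := FiniteField.card (𝓞 K ⧸ v.asIdeal) p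
  refine ⟨p, f, hp, f.pos, ?_, ?_⟩
  · rw [Ideal.absNorm_apply, Submodule.cardQuot_apply, Nat.card_eq_fintype_card]
    exact hf
  · rw [← Ideal.Quotient.eq_zero_iff_mem, map_natCast]
    exact CharP.cast_eq_zero _ p

variable {a : ℤ} (ha : GoodBase a) {k : ℕ} [NeZero k]

include ha in
/-- **The criterion.** -/
theorem absNorm_eq_prime_iff {p : ℕ} (hp : p.Prime) (hpk : ¬ p ∣ k) (hpa : ¬ (p : ℤ) ∣ a)
    {Q : Ideal (𝓞 (KummerField a k))} [Q.IsMaximal]
    (hpQ : (p : 𝓞 (KummerField a k)) ∈ Q) : absNorm Q = p ↔ RootCond a k p := by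
  haveI := isGalois_kummerField (k := k) ha
  haveI : Fact p.Prime := ⟨hp⟩
  obtain ⟨ζ, α, hζ, hα, htop⟩ := exists_kummer_gens (k := k) ha
  obtain ⟨z, hz⟩ : ∃ z : 𝓞 (KummerField a k), (z : KummerField a k) = ζ :=
    ⟨hζ.toInteger, rfl⟩
  obtain ⟨x, hx⟩ : ∃ x : 𝓞 (KummerField a k), (x : KummerField a k) = α :=
    ⟨⟨α, IsIntegral.of_pow (NeZero.pos k) (by
      rw [hα]; exact isIntegral_algebraMap (R := ℤ) (A := KummerField a k) (x := a))⟩, rfl⟩
  have hxk : x ^ k = (a : 𝓞 (KummerField a k)) := RingOfIntegers.ext (by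
    simp only [map_pow, map_intCast]
    exact (congrArg (· ^ k) hx).trans hα)
  have hzp : IsPrimitiveRoot z k := by
    refine IsPrimitiveRoot.of_map_of_injective (f := algebraMap _ (KummerField a k)) ?_
      RingOfIntegers.coe_injective
    rw [show algebraMap (𝓞 (KummerField a k)) (KummerField a k) z = ζ from hz]
    exact hζ
  have hne : Q ≠ ⊥ := fun e => hp.ne_zero (by rw [e, Ideal.mem_bot] at hpQ; exact_mod_cast hpQ)
  haveI : Finite (𝓞 (KummerField a k) ⧸ Q) := Ideal.finiteQuotientOfFreeOfNeBot _ hne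
  letI := Ideal.Quotient.field Q
  haveI : CharP (𝓞 (KummerField a k) ⧸ Q) p := (CharP.charP_iff_prime_eq_zero hp).2 (by
    rw [← map_natCast (Ideal.Quotient.mk Q), Ideal.Quotient.eq_zero_iff_mem]
    exact hpQ)
  obtain ⟨π, hπ⟩ : ∃ π : 𝓞 (KummerField a k) →+* 𝓞 (KummerField a k) ⧸ Q,
      π = Ideal.Quotient.mk Q := ⟨_, rfl⟩
  haveI : NeZero ((k : ℕ) : 𝓞 (KummerField a k) ⧸ Q) :=
    ⟨fun e => hpk ((CharP.cast_eq_zero_iff _ p k).1 e)⟩
  have hzQ : IsPrimitiveRoot (π z) k := by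
    rw [← isRoot_cyclotomic_iff]
    have := (hzp.isRoot_cyclotomic (NeZero.pos k)).map (f := π)
    rwa [map_cyclotomic] at this
  have haQ : ((a : ℤ) : 𝓞 (KummerField a k) ⧸ Q) ≠ 0 := fun e =>
    hpa ((CharP.intCast_eq_zero_iff _ p a).1 e)
  have hxQ : π x ≠ 0 := fun e => haQ (by
    rw [← map_intCast π a, ← hxk, map_pow, e, zero_pow (NeZero.ne k)])
  constructor
  · intro h
    rw [Ideal.absNorm_apply, Submodule.cardQuot_apply] at h
    cases nonempty_fintype (𝓞 (KummerField a k) ⧸ Q)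
    rw [Nat.card_eq_fintype_card] at h
    have hpow : ∀ y : 𝓞 (KummerField a k) ⧸ Q, y ≠ 0 → y ^ (p - 1) = 1 := fun y hy =>
      h ▸ FiniteField.pow_card_sub_one_eq_one y hy
    have hdvd : k ∣ p - 1 := (hzQ.pow_eq_one_iff_dvd _).1 (hpow _ (hzQ.ne_zero (NeZero.ne k)))
    refine ⟨hdvd, (CharP.intCast_eq_zero_iff (𝓞 (KummerField a k) ⧸ Q) p _).1 ?_⟩
    rw [Int.cast_sub, Int.cast_pow, Int.cast_one, ← map_intCast π a, ← hxk, map_pow, ← pow_mul,
      Nat.mul_div_cancel' hdvd, hpow _ hxQ, sub_self]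
  · rintro ⟨hdvd, hdiv⟩
    obtain ⟨σ, hσ⟩ := IsArithFrobAt.exists_of_isInvariant ℤ
      (KummerField a k ≃ₐ[ℚ] KummerField a k) Q
    have hcard := FA.FrobeniusDensity.card_quotient_under hp (Ideal.IsMaximal.ne_top ‹_›) hpQ
    have hfrob : ∀ y, π (σ • y) = π y ^ p := fun y => by
      rw [hπ, ← map_pow, Ideal.Quotient.eq, ← hcard]
      exact hσ y
    have hpow : ∀ {G : Type} [Monoid G] (u : G), u ^ (p - 1) = 1 → u ^ p = u := fun {G} _ u hu => by
      rw [show p = p - 1 + 1 by have := hp.pos; omega, pow_succ, hu, one_mul]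
    have hkey : ∀ y : 𝓞 (KummerField a k), y ^ k = z ^ 0 → π y ^ p = π y → σ • y = y :=
      fun y hy hyp => by
      rw [pow_zero] at hy
      obtain ⟨i, hi, hzi⟩ := hzp.eq_pow_of_pow_eq_one (ξ := y) hy
      obtain ⟨j, hj, hzj⟩ := hzp.eq_pow_of_pow_eq_one (ξ := σ • y) (by
        rw [← smul_pow', hy, smul_one])
      have := hfrob y
      rw [hyp, ← hzj, ← hzi, map_pow, map_pow] at this
      rw [← hzj, ← hzi, hzQ.pow_inj hj hi this]
    have hσz : σ • z = z := hkey z (by rw [pow_zero, hzp.pow_eq_one]) (hpow _ (by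
      rw [← Nat.mul_div_cancel' hdvd, pow_mul, hzQ.pow_eq_one, one_pow]))
    have hap : π x ^ (p - 1) = 1 := by
      rw [← Nat.mul_div_cancel' hdvd, pow_mul, ← map_pow, hxk, map_intCast π a]
      have := (CharP.intCast_eq_zero_iff (𝓞 (KummerField a k) ⧸ Q) p _).2 hdiv
      rwa [Int.cast_sub, Int.cast_pow, Int.cast_one, sub_eq_zero] at this
    have hx0 : (x : KummerField a k) ≠ 0 := fun e => hxQ (by
      rw [show x = 0 from RingOfIntegers.coe_injective (e.trans (map_zero _).symm), map_zero])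
    have hσx : σ • x = x := by
      obtain ⟨i, hi, hzi⟩ := hζ.eq_pow_of_pow_eq_one (ξ := σ (x : KummerField a k) / x) (by
        rw [div_pow, ← map_pow, show (x : KummerField a k) ^ k = a from
          (congrArg (· ^ k) hx).trans hα, map_intCast σ a,
          div_self (Int.cast_ne_zero.2 ha.ne_zero)])
      have hxz : σ • x = z ^ i * x := RingOfIntegers.coe_injective (by
        rw [map_mul, map_pow]
        show σ (x : KummerField a k) = (z : KummerField a k) ^ i * (x : KummerField a k)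
        rw [hz, hzi, div_mul_cancel₀ _ hx0])
      have := hfrob x
      rw [hpow _ hap, hxz, map_mul, map_pow, mul_eq_right₀ hxQ, hzQ.pow_eq_one_iff_dvd] at this
      have hi0 : i = 0 := Nat.eq_zero_of_dvd_of_lt this hi
      rw [hxz, hi0, pow_zero, one_mul]
    have hσ1 : ∀ y : KummerField a k, σ y = y := fun y => by
      have hy : y ∈ IntermediateField.adjoin ℚ {ζ, α} := htop ▸ IntermediateField.mem_top
      induction hy using IntermediateField.adjoin_induction with
      | mem r hr =>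
        rcases hr with rfl | hr
        · rw [← hz]
          exact congrArg (fun t : 𝓞 (KummerField a k) => (t : KummerField a k)) hσz
        · rw [Set.mem_singleton_iff] at hr
          rw [hr, ← hx]
          exact congrArg (fun t : 𝓞 (KummerField a k) => (t : KummerField a k)) hσx
      | algebraMap q => exact σ.commutes q
      | add r s _ _ h1 h2 => rw [map_add, h1, h2]
      | inv r _ h1 => rw [map_inv₀, h1]
      | mul r s _ _ h1 h2 => rw [map_mul, h1, h2]
    cases nonempty_fintype (𝓞 (KummerField a k) ⧸ Q)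
    have hall : ∀ y : 𝓞 (KummerField a k) ⧸ Q, y ^ p = y := fun y => by
      obtain ⟨w, rfl⟩ := Ideal.Quotient.mk_surjective y
      rw [← hπ, ← hfrob, show σ • w = w from RingOfIntegers.coe_injective (hσ1 w)]
    have hle : Fintype.card (𝓞 (KummerField a k) ⧸ Q) ≤ p := by
      have hsub : (Finset.univ : Finset (𝓞 (KummerField a k) ⧸ Q)).val ⊆
          (X ^ p - X : (𝓞 (KummerField a k) ⧸ Q)[X]).roots := fun y _ => by
        rw [mem_roots (FiniteField.X_pow_card_sub_X_ne_zero _ hp.one_lt)]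
        simp [hall y]
      refine (card_le_degree_of_subset_roots hsub).trans ?_
      rw [FiniteField.X_pow_card_sub_X_natDegree_eq _ hp.one_lt]
    obtain ⟨f, hp', hf⟩ := FiniteField.card (𝓞 (KummerField a k) ⧸ Q) p
    rw [Ideal.absNorm_apply, Submodule.cardQuot_apply, Nat.card_eq_fintype_card]
    refine le_antisymm hle ?_
    rw [hf]
    exact Nat.le_self_pow f.ne_zero p

include ha in
theorem card_over_le {p : ℕ} (hp : p.Prime) :
    (Ideal.primesOver (span {(p : ℤ)}) (𝓞 (KummerField a k))).ncard ≤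
      finrank ℚ (KummerField a k) := by
  haveI := isGalois_kummerField (k := k) ha
  haveI : (span {(p : ℤ)}).IsMaximal :=
    PrincipalIdealRing.isMaximal_of_irreducible (Nat.prime_iff_prime_int.1 hp).irreducible
  have h := Ideal.ncard_primesOver_mul_ramificationIdxIn_mul_inertiaDegIn (span {(p : ℤ)})
    (𝓞 (KummerField a k)) Gal(KummerField a k/ℚ)
  rw [IsGalois.card_aut_eq_finrank] at h
  refine Nat.le_of_dvd finrank_pos ⟨_, h.symm⟩

include ha in
/-- **`π_K` counts them.** -/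
theorem piK_sub_splitCount_le (hk : Squarefree k) {x : ℝ} (hx : 1 ≤ x) :
    |piK (KummerField a k) x -
        finrank ℚ (KummerField a k) * (splitCount a k ⌊x⌋₊ : ℝ)| ≤
      finrank ℚ (KummerField a k) * (√x + 2 * (Real.log k + Real.log |(a : ℝ)|)) := by
  haveI := isGalois_kummerField (k := k) ha
  obtain ⟨n, hn⟩ : ∃ n, n = finrank ℚ (KummerField a k) := ⟨_, rfl⟩
  obtain ⟨m, hm⟩ : ∃ m, m = k * a.natAbs := ⟨_, rfl⟩
  have hm0 : m ≠ 0 := hm ▸ Nat.mul_ne_zero (NeZero.ne k) (Int.natAbs_ne_zero.2 ha.ne_zero)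
  obtain ⟨N, hN⟩ : ∃ N, N = ⌊x⌋₊ := ⟨_, rfl⟩
  obtain ⟨G, hG⟩ : ∃ G, G = (Finset.Icc 1 N).filter
      fun p => p.Prime ∧ RootCond a k p ∧ ¬ p ∣ m := ⟨_, rfl⟩
  obtain ⟨S, hS⟩ : ∃ S, S = primesLE (KummerField a k) N := ⟨_, rfl⟩
  rw [piK, ← hn, ← hN, ← hS, splitCount]
  have hmem : ∀ (p : ℕ) (v : HeightOneSpectrum (𝓞 (KummerField a k))),
      p.Prime → (p : 𝓞 (KummerField a k)) ∈ v.asIdeal →
        v.asIdeal ∈ Ideal.primesOver (span {(p : ℤ)}) (𝓞 (KummerField a k)) := fun p v hp hpv =>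
    ⟨v.isPrime, ⟨(FA.FrobeniusDensity.under_eq hp v.isPrime.ne_top hpv).symm⟩⟩
  have hle : ∀ (p : ℕ) (T : Finset (HeightOneSpectrum (𝓞 (KummerField a k)))), p.Prime →
      (∀ v ∈ T, (p : 𝓞 (KummerField a k)) ∈ v.asIdeal) → T.card ≤ n := fun p T hp hT => by
    refine le_trans ?_ (hn ▸ card_over_le (k := k) ha hp)
    rw [← Set.ncard_coe_finset, ← Set.ncard_image_of_injective _
      (fun _ _ h => HeightOneSpectrum.ext h : Function.Injective fun v :
        HeightOneSpectrum (𝓞 (KummerField a k)) => v.asIdeal)]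
    haveI : (span {(p : ℤ)}).IsMaximal :=
      PrincipalIdealRing.isMaximal_of_irreducible (Nat.prime_iff_prime_int.1 hp).irreducible
    refine Set.ncard_le_ncard ?_ (Algebra.QuasiFinite.finite_primesOver _)
    rintro _ ⟨v, hv, rfl⟩
    exact hmem p v hp (hT v hv)
  obtain ⟨V, hV⟩ : ∃ V, V = S.filter fun v => absNorm v.asIdeal ∈ G := ⟨_, rfl⟩
  have hfib : ∀ p ∈ G, (V.filter fun v => absNorm v.asIdeal = p).card = n := fun p hp => by
    have hpG := hp
    rw [hG, Finset.mem_filter, Finset.mem_Icc] at hp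
    obtain ⟨⟨-, hpN⟩, hpp, hc, hpm⟩ := hp
    haveI : (span {(p : ℤ)}).IsMaximal :=
      PrincipalIdealRing.isMaximal_of_irreducible (Nat.prime_iff_prime_int.1 hpp).irreducible
    have hpk : ¬ p ∣ k := fun e => hpm (hm ▸ Dvd.dvd.mul_right e _)
    have hpa : ¬ (p : ℤ) ∣ a := fun e =>
      hpm (hm ▸ Dvd.dvd.mul_left (Int.natCast_dvd.1 e) _)
    have hpd : ¬ (p : ℤ) ∣ discr (KummerField a k) := fun e =>
      hpm (hm ▸ (kummer_finrank_and_discr ha hk).2.2 p hpp (Int.natCast_dvd.1 e))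
    have hnorm : ∀ Q ∈ Ideal.primesOver (span {(p : ℤ)}) (𝓞 (KummerField a k)),
        Q.IsMaximal ∧ Q ≠ ⊥ ∧ absNorm Q = p := fun Q hQ => by
      haveI := hQ.1
      haveI := hQ.2
      have hmax : Q.IsMaximal := Ideal.IsMaximal.of_liesOver_isMaximal Q (span {(p : ℤ)})
      have hpQ : (p : 𝓞 (KummerField a k)) ∈ Q := by
        have h := Ideal.mem_span_singleton_self (p : ℤ)
        rw [hQ.2.over, Ideal.under, Ideal.mem_comap, map_natCast] at h
        exact h
      refine ⟨hmax, fun e => hpp.ne_zero ?_, (absNorm_eq_prime_iff ha hpp hpk hpa hpQ).2 hc⟩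
      rw [e, Ideal.mem_bot] at hpQ
      exact_mod_cast hpQ
    obtain ⟨Q, hQmax, hQ⟩ := Ideal.exists_maximal_ideal_liesOver_of_isIntegral
      (S := 𝓞 (KummerField a k)) (span {(p : ℤ)})
    have hQn := hnorm Q ⟨hQmax.isPrime, hQ⟩
    rw [hn, ← split_of_norm_prime (KummerField a k) hpp hpd ⟨Q, hQmax.isPrime, hQn.2.1⟩ hQn.2.2,
      ← Set.ncard_coe_finset, ← Set.ncard_image_of_injective _
      (fun _ _ h => HeightOneSpectrum.ext h : Function.Injective fun v :
        HeightOneSpectrum (𝓞 (KummerField a k)) => v.asIdeal)]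
    congr 1
    ext P
    constructor
    · rintro ⟨v, hv, rfl⟩
      rw [Finset.mem_coe, Finset.mem_filter] at hv
      obtain ⟨p', f, -, -, -, -⟩ := exists_norm_eq_pow v
      exact hmem p v hpp (by simpa [hv.2] using Ideal.absNorm_mem v.asIdeal)
    · intro hP
      obtain ⟨h1, h2, h3⟩ := hnorm P hP
      refine ⟨⟨P, h1.isPrime, h2⟩, ?_, rfl⟩
      rw [Finset.mem_coe, Finset.mem_filter, hV, Finset.mem_filter, hS, mem_primesLE]
      exact ⟨⟨h3.trans_le hpN, h3.symm ▸ hpG⟩, h3⟩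
  have hVcard : V.card = G.card * n := by
    rw [Finset.card_eq_sum_card_fiberwise (f := fun v => absNorm v.asIdeal) (t := G)
      fun v hv => by
        rw [hV, Finset.mem_coe, Finset.mem_filter] at hv
        exact hv.2, Finset.sum_congr rfl hfib, Finset.sum_const, smul_eq_mul]
  obtain ⟨P, hPdef⟩ : ∃ P, P = m.primeFactors ∪ Finset.Icc 1 (Nat.sqrt N) := ⟨_, rfl⟩
  have hrest : (S \ V).card ≤ P.card * n := by
    refine (Finset.card_le_mul_card_image_of_maps_to (s := S \ V) (t := P)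
      (f := fun v : HeightOneSpectrum (𝓞 (KummerField a k)) => (absNorm v.asIdeal).minFac)
      (fun v hv => ?_) n fun p hp => ?_).trans (le_of_eq (mul_comm _ _))
    · obtain ⟨q, f, hq, hf, he, hqv⟩ := exists_norm_eq_pow v
      rw [Finset.mem_sdiff, hV, Finset.mem_filter, hS, mem_primesLE] at hv
      show (absNorm v.asIdeal).minFac ∈ P
      rw [he, Nat.Prime.pow_minFac hq (by omega), hPdef, Finset.mem_union, Nat.mem_primeFactors,
        Finset.mem_Icc]
      by_cases hqm : q ∣ m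
      · exact Or.inl ⟨hq, hqm, hm0⟩
      refine Or.inr ⟨hq.one_le, Nat.le_sqrt'.2 ((Nat.pow_le_pow_right hq.pos ?_).trans
        (he ▸ hv.1))⟩
      by_contra hf2
      have hf1 : f = 1 := by omega
      rw [hf1, pow_one] at he
      haveI := v.isMaximal
      refine hv.2 ⟨hv.1, ?_⟩
      rw [he, hG, Finset.mem_filter, Finset.mem_Icc]
      refine ⟨⟨hq.one_le, he ▸ hv.1⟩, hq, (absNorm_eq_prime_iff ha hq (fun e => hqm ?_)
        (fun e => hqm ?_) hqv).1 he, hqm⟩
      · exact hm ▸ Dvd.dvd.mul_right e _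
      · exact hm ▸ Dvd.dvd.mul_left (Int.natCast_dvd.1 e) _
    · by_cases hpp : p.Prime
      · refine hle p _ hpp fun v hv => ?_
        obtain ⟨q, f, hq, hf, he, hqv⟩ := exists_norm_eq_pow v
        rw [Finset.mem_filter, he, Nat.Prime.pow_minFac hq (by omega)] at hv
        rwa [← hv.2]
      · rw [Finset.card_eq_zero.2 (Finset.filter_eq_empty_iff.2 fun v _ e => hpp ?_)]
        · exact Nat.zero_le _
        · rw [← e]
          refine Nat.minFac_prime ?_
          exact fun h1 => v.isPrime.ne_top (Ideal.absNorm_eq_one_iff.1 h1)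
  have hVS : V ⊆ S := hV ▸ Finset.filter_subset _ _
  have hScard : S.card = (S \ V).card + V.card :=
    (Finset.card_sdiff_add_card_eq_card hVS).symm
  obtain ⟨T, hT⟩ : ∃ T, T = (Finset.Icc 1 N).filter fun p => p.Prime ∧ RootCond a k p := ⟨_, rfl⟩
  rw [← hT]
  have hGT : G.card ≤ T.card := Finset.card_le_card fun p hp => by
    rw [hG, Finset.mem_filter] at hp
    exact hT ▸ Finset.mem_filter.2 ⟨hp.1, hp.2.1, hp.2.2.1⟩
  have hTG : T.card ≤ G.card + m.primeFactors.card := by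
    refine (Finset.card_le_card fun p hp => ?_).trans (Finset.card_union_le _ _)
    rw [hT, Finset.mem_filter] at hp
    by_cases hpm : p ∣ m
    · exact Finset.mem_union_right _ (Nat.mem_primeFactors.2 ⟨hp.2.1, hpm, hm0⟩)
    · exact Finset.mem_union_left _ (hG ▸ Finset.mem_filter.2 ⟨hp.1, hp.2.1, hp.2.2, hpm⟩)
  have hB : (m.primeFactors.card : ℝ) ≤ 2 * (Real.log k + Real.log |(a : ℝ)|) := by
    have hpow : 2 ^ m.primeFactors.card ≤ m := by
      refine le_trans ?_ (Nat.le_of_dvd (Nat.pos_of_ne_zero hm0) (Nat.prod_primeFactors_dvd m))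
      exact Finset.pow_card_le_prod _ _ _ fun p hp => (Nat.prime_of_mem_primeFactors hp).two_le
    have hlog := Real.log_le_log (by positivity)
      (show ((2 : ℝ) ^ m.primeFactors.card) ≤ (m : ℝ) by exact_mod_cast hpow)
    rw [Real.log_pow, hm, Nat.cast_mul, Real.log_mul (Nat.cast_ne_zero.2 (NeZero.ne k))
      (Nat.cast_ne_zero.2 (Int.natAbs_ne_zero.2 ha.ne_zero)),
      show ((a.natAbs : ℕ) : ℝ) = |(a : ℝ)| by rw [Nat.cast_natAbs, Int.cast_abs], ← hm] at hlog
    nlinarith [Real.log_two_gt_d9, Nat.cast_nonneg (α := ℝ) m.primeFactors.card]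
  have hsq : (Nat.sqrt N : ℝ) ≤ √x := Real.nat_sqrt_le_real_sqrt.trans
    (Real.sqrt_le_sqrt (hN ▸ Nat.floor_le (by linarith)))
  have hP : P.card ≤ m.primeFactors.card + Nat.sqrt N := by
    refine hPdef ▸ (Finset.card_union_le _ _).trans ?_
    rw [Nat.card_Icc, Nat.add_sub_cancel]
  have e1 : (S.card : ℝ) ≤ n * (G.card + (m.primeFactors.card + Nat.sqrt N : ℕ)) := by
    have := hScard.le.trans (Nat.add_le_add (hrest.trans (Nat.mul_le_mul_right n hP)) hVcard.le)
    calc (S.card : ℝ) ≤ (((m.primeFactors.card + Nat.sqrt N) * n + G.card * n : ℕ) : ℝ) :=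
          Nat.cast_le.2 this
      _ = _ := by push_cast; ring
  have e2 : (n : ℝ) * G.card ≤ S.card := by
    have : G.card * n ≤ S.card := hVcard ▸ Finset.card_le_card hVS
    calc (n : ℝ) * G.card = ((G.card * n : ℕ) : ℝ) := by push_cast; ring
      _ ≤ _ := Nat.cast_le.2 this
  have hGT' : (n : ℝ) * G.card ≤ n * T.card :=
    mul_le_mul_of_nonneg_left (Nat.cast_le.2 hGT) (Nat.cast_nonneg n)
  have hTG' : (n : ℝ) * T.card ≤ n * (G.card + m.primeFactors.card) :=
    mul_le_mul_of_nonneg_left (by exact_mod_cast hTG) (Nat.cast_nonneg n)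
  have hB' := mul_le_mul_of_nonneg_left hB (Nat.cast_nonneg (α := ℝ) n)
  have hsq' := mul_le_mul_of_nonneg_left hsq (Nat.cast_nonneg (α := ℝ) n)
  push_cast at e1
  rw [abs_le]
  constructor <;> linarith [mul_nonneg (Nat.cast_nonneg (α := ℝ) n) (Real.sqrt_nonneg x)]

end FA.ArtinHooley

end
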